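/-
DS-E (weight-one Eisenstein series), file 1: the series
`Z(q,u) = πi (u+1)/(u-1) + 2πi Σ_{m≥1} [qᵐu⁻¹/(1-qᵐu⁻¹) - qᵐu/(1-qᵐu)]`
(the logarithmic derivative of the Jacobi theta function `θ₁`, written in the variables
`q = e^{2πiτ}`, `u = e^{2πiz}`), its convergence and the quasi-periodicity `Z(q,uq) = Z(q,u) - 2πi`.
-/
import Mathlib

set_option autoImplicit false

noncomputable section

namespace Fermat.Agent.DS

open Complex Filter Topology
open scoped Real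

/-- `x / (1 - x)` -/
def dseG (x : ℂ) : ℂ := x / (1 - x)

theorem dse_norm_G_le {x : ℂ} {r : ℝ} (hr : r < 1) (hx : ‖x‖ ≤ r) : ‖dseG x‖ ≤ ‖x‖ / (1 - r) := by
  have h1 : 1 - r ≤ ‖1 - x‖ := by
    have := norm_sub_norm_le (1 : ℂ) x
    rw [norm_one] at this
    linarith
  have h2 : 0 < 1 - r := by linarith
  rw [dseG, norm_div]
  exact div_le_div_of_nonneg_left (norm_nonneg x) h2 h1

/-- the `m`-th term of the series -/
def dseTermL (q u : ℂ) (m : ℕ) : ℂ := dseG (q ^ (m + 1) * u⁻¹) - dseG (q ^ (m + 1) * u)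

/-- the series `Σ_{m≥1} [qᵐu⁻¹/(1-qᵐu⁻¹) - qᵐu/(1-qᵐu)]` -/
def dseL (q u : ℂ) : ℂ := ∑' m : ℕ, dseTermL q u m

/-- `Z(q,u)` -/
def dseZ (q u : ℂ) : ℂ := π * I * ((u + 1) / (u - 1)) + 2 * π * I * dseL q u

theorem dse_norm_termL_le {q u : ℂ} {r : ℝ} (hr : r < 1) (hq : ‖q‖ ≤ 1) (h1 : ‖q * u⁻¹‖ ≤ r)
    (h2 : ‖q * u‖ ≤ r) (m : ℕ) : ‖dseTermL q u m‖ ≤ 2 * r / (1 - r) * ‖q‖ ^ m := by
  have hr0 : 0 ≤ r := le_trans (norm_nonneg _) h1
  have hqm : ‖q‖ ^ m ≤ 1 := pow_le_one₀ (norm_nonneg q) hq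
  have e1 : ‖q ^ (m + 1) * u⁻¹‖ ≤ r * ‖q‖ ^ m := by
    rw [pow_succ, mul_assoc, norm_mul, norm_pow, mul_comm]
    exact mul_le_mul_of_nonneg_right h1 (pow_nonneg (norm_nonneg q) m)
  have e2 : ‖q ^ (m + 1) * u‖ ≤ r * ‖q‖ ^ m := by
    rw [pow_succ, mul_assoc, norm_mul, norm_pow, mul_comm]
    exact mul_le_mul_of_nonneg_right h2 (pow_nonneg (norm_nonneg q) m)
  have e1' : ‖q ^ (m + 1) * u⁻¹‖ ≤ r := le_trans e1 (mul_le_of_le_one_right hr0 hqm)
  have e2' : ‖q ^ (m + 1) * u‖ ≤ r := le_trans e2 (mul_le_of_le_one_right hr0 hqm)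
  have h3 : 0 < 1 - r := by linarith
  calc ‖dseTermL q u m‖ ≤ ‖dseG (q ^ (m + 1) * u⁻¹)‖ + ‖dseG (q ^ (m + 1) * u)‖ := norm_sub_le _ _
    _ ≤ ‖q ^ (m + 1) * u⁻¹‖ / (1 - r) + ‖q ^ (m + 1) * u‖ / (1 - r) :=
        add_le_add (dse_norm_G_le hr e1') (dse_norm_G_le hr e2')
    _ ≤ r * ‖q‖ ^ m / (1 - r) + r * ‖q‖ ^ m / (1 - r) := by gcongr
    _ = 2 * r / (1 - r) * ‖q‖ ^ m := by ring

theorem dse_tendsto_G_pow {q : ℂ} (hq : ‖q‖ < 1) (c : ℂ) :
    Tendsto (fun k : ℕ => dseG (q ^ k * c)) atTop (𝓝 0) := by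
  have h1 : Tendsto (fun k : ℕ => q ^ k * c) atTop (𝓝 0) := by
    have := (tendsto_pow_atTop_nhds_zero_of_norm_lt_one hq).mul_const c
    simpa using this
  have h2 : ContinuousAt dseG 0 := by
    unfold dseG
    refine ContinuousAt.div continuousAt_id (continuousAt_const.sub continuousAt_id) ?_
    simp
  have h3 : dseG 0 = 0 := by simp [dseG]
  have := h2.tendsto.comp h1
  rw [h3] at this
  exact this

theorem dse_summable_termL {q : ℂ} (hq : ‖q‖ < 1) (u : ℂ) : Summable (dseTermL q u) := by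
  have hg : Summable fun m : ℕ => 2 * (‖u⁻¹‖ + ‖u‖) * ‖q‖ ^ (m + 1) := by
    refine Summable.mul_left _ ?_
    exact (summable_nat_add_iff 1).mpr (summable_geometric_of_lt_one (norm_nonneg q) hq)
  refine Summable.of_norm_bounded_eventually_nat hg ?_
  have ht1 : Tendsto (fun k : ℕ => ‖q ^ (k + 1) * u⁻¹‖) atTop (𝓝 0) := by
    have := ((tendsto_pow_atTop_nhds_zero_of_norm_lt_one hq).comp (tendsto_add_atTop_nat 1)).mul_const
      u⁻¹
    simpa using this.norm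
  have ht2 : Tendsto (fun k : ℕ => ‖q ^ (k + 1) * u‖) atTop (𝓝 0) := by
    have := ((tendsto_pow_atTop_nhds_zero_of_norm_lt_one hq).comp (tendsto_add_atTop_nat 1)).mul_const
      u
    simpa using this.norm
  filter_upwards [ht1.eventually (gt_mem_nhds (show (0 : ℝ) < 1 / 2 by norm_num)),
    ht2.eventually (gt_mem_nhds (show (0 : ℝ) < 1 / 2 by norm_num))] with m hm1 hm2
  have b1 := dse_norm_G_le (show (1 / 2 : ℝ) < 1 by norm_num) hm1.le
  have b2 := dse_norm_G_le (show (1 / 2 : ℝ) < 1 by norm_num) hm2.le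
  have n1 : ‖q ^ (m + 1) * u⁻¹‖ = ‖q‖ ^ (m + 1) * ‖u⁻¹‖ := by rw [norm_mul, norm_pow]
  have n2 : ‖q ^ (m + 1) * u‖ = ‖q‖ ^ (m + 1) * ‖u‖ := by rw [norm_mul, norm_pow]
  calc ‖dseTermL q u m‖ ≤ ‖dseG (q ^ (m + 1) * u⁻¹)‖ + ‖dseG (q ^ (m + 1) * u)‖ := norm_sub_le _ _
    _ ≤ ‖q ^ (m + 1) * u⁻¹‖ / (1 - 1 / 2) + ‖q ^ (m + 1) * u‖ / (1 - 1 / 2) := add_le_add b1 b2
    _ = 2 * (‖u⁻¹‖ + ‖u‖) * ‖q‖ ^ (m + 1) := by rw [n1, n2]; ring

/-- **quasi-periodicity**: `Z(q, uq) = Z(q,u) - 2πi` -/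
theorem dseZ_mul_q {q u : ℂ} (hq : ‖q‖ < 1) (hq0 : q ≠ 0) (hu0 : u ≠ 0) (hu1 : u ≠ 1)
    (hu2 : u * q ≠ 1) : dseZ q (u * q) = dseZ q u - 2 * π * I := by
  -- the telescoping sum
  have hsum : dseL q (u * q) - dseL q u = dseG u⁻¹ + dseG (q * u) := by
    set A : ℕ → ℂ := fun k => dseG (q ^ k * u⁻¹) with hA
    set B : ℕ → ℂ := fun k => dseG (q ^ k * u) with hB
    have hterm : ∀ m : ℕ, dseTermL q (u * q) m - dseTermL q u m
        = (A m - A (m + 1)) + (B (m + 1) - B (m + 2)) := by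
      intro m
      simp only [dseTermL, hA, hB]
      have e1 : q ^ (m + 1) * (u * q)⁻¹ = q ^ m * u⁻¹ := by
        rw [pow_succ, mul_inv]
        field_simp
      have e2 : q ^ (m + 1) * (u * q) = q ^ (m + 2) * u := by ring
      rw [e1, e2]
      ring
    have hs1 := dse_summable_termL hq (u * q)
    have hs2 := dse_summable_termL hq u
    have hs : HasSum (fun m => dseTermL q (u * q) m - dseTermL q u m)
        (dseL q (u * q) - dseL q u) := hs1.hasSum.sub hs2.hasSum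
    have ht := hs.tendsto_sum_nat
    have hpart : ∀ M : ℕ, ∑ m ∈ Finset.range M, (dseTermL q (u * q) m - dseTermL q u m)
        = (A 0 - A M) + (B 1 - B (M + 1)) := by
      intro M
      simp only [hterm, Finset.sum_add_distrib]
      rw [Finset.sum_range_sub', ]
      congr 1
      have := Finset.sum_range_sub' (fun k => B (k + 1)) M
      simpa using this
    have hlim : Tendsto (fun M : ℕ => (A 0 - A M) + (B 1 - B (M + 1))) atTop
        (𝓝 ((A 0 - 0) + (B 1 - 0))) := by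
      refine Tendsto.add (tendsto_const_nhds.sub (dse_tendsto_G_pow hq u⁻¹)) ?_
      exact tendsto_const_nhds.sub ((dse_tendsto_G_pow hq u).comp (tendsto_add_atTop_nat 1))
    have := tendsto_nhds_unique (ht.congr hpart) hlim
    rw [this]
    simp [hA, hB]
  have hL : dseL q (u * q) = dseL q u + (dseG u⁻¹ + dseG (q * u)) := by
    rw [← hsum]; ring
  have h1 : u - 1 ≠ 0 := sub_ne_zero.mpr hu1
  have h2 : u * q - 1 ≠ 0 := sub_ne_zero.mpr hu2
  have h3 : 1 - q * u ≠ 0 := by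
    intro h
    apply hu2
    rw [mul_comm]
    exact (sub_eq_zero.mp h).symm
  have h4 : (1 : ℂ) - u⁻¹ ≠ 0 := by
    intro h
    apply hu1
    have : u⁻¹ = 1 := (sub_eq_zero.mp h).symm
    rw [← inv_inv u, this, inv_one]
  rw [dseZ, dseZ, hL, dseG, dseG]
  field_simp
  ring

end Fermat.Agent.DS
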