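/-
DS-E, file 3: the cotangent — its partial fraction expansion as an absolutely convergent sum over
`ℤ`, and its expression through exponentials.
-/
import Mathlib
import Fermat.Agent.Lib.DS.Eis1.Series

set_option autoImplicit false

noncomputable section

namespace Fermat.Agent.DS

open Complex Filter Topology EisensteinSeries Asymptotics
open scoped Real

/-- the summand `1/(w-n) + 1/n` of the cotangent series -/
def dseC (w : ℂ) (n : ℤ) : ℂ := if n = 0 then 1 / w else 1 / (w - n) + 1 / n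

theorem dseC_zero (w : ℂ) : dseC w 0 = 1 / w := by simp [dseC]

theorem dseC_of_ne (w : ℂ) {n : ℤ} (hn : n ≠ 0) : dseC w n = 1 / (w - n) + 1 / n := by
  simp [dseC, hn]

theorem dse_summable_C (w : ℂ) : Summable (dseC w) := by
  have h1 : (fun n : ℤ => ((n : ℂ) * (w - n))⁻¹) =O[cofinite] fun n => (|(n : ℝ)| ^ (2 : ℝ))⁻¹ := by
    have e1 : (fun n : ℤ => ((n : ℂ))⁻¹) =O[cofinite] fun n => (n : ℝ)⁻¹ := by
      refine IsBigO.of_bound 1 (Eventually.of_forall fun n => ?_)
      simp
    have e2 : (fun n : ℤ => (w - n)⁻¹) =O[cofinite] fun n => (n : ℝ)⁻¹ := by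
      have := linear_inv_isBigO_right_add 1 0 (-w)
      refine IsBigO.trans (IsBigO.of_bound 1 (Eventually.of_forall fun n => ?_)) this
      rw [one_mul]
      apply le_of_eq
      have : ((1 : ℤ) : ℂ) * -w + (n : ℂ) + ((0 : ℤ) : ℂ) = -(w - n) := by push_cast; ring
      rw [this, inv_neg, norm_neg]
    refine (e1.mul e2).congr (fun n => (mul_inv _ _).symm) (fun n => ?_)
    have : |(n : ℝ)| ^ (2 : ℝ) = (n : ℝ) * (n : ℝ) := by
      rw [Real.rpow_two, sq_abs, sq]
    rw [this, mul_inv]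
  have h2 := summable_inv_of_isBigO_rpow_inv (a := 2) (by norm_num) h1
  have h3 : Summable fun n : ℤ => w * ((n : ℂ) * (w - n))⁻¹ := h2.mul_left w
  refine h3.congr_cofinite ?_
  have hne : ∀ᶠ n : ℤ in cofinite, n ≠ 0 ∧ (n : ℂ) ≠ w := by
    have hfin : Set.Finite {n : ℤ | ¬ (n ≠ 0 ∧ (n : ℂ) ≠ w)} := by
      have : {n : ℤ | ¬ (n ≠ 0 ∧ (n : ℂ) ≠ w)} ⊆ {0} ∪ {n : ℤ | (n : ℂ) = w} := by
        intro n hn
        simp only [Set.mem_setOf_eq, not_and_or, not_not] at hn
        rcases hn with h | h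
        · left; exact h
        · right; exact h
      refine Set.Finite.subset ((Set.finite_singleton 0).union ?_) this
      refine Set.Subsingleton.finite ?_
      intro a ha b hb
      exact Int.cast_injective (ha.trans hb.symm)
    exact hfin
  filter_upwards [hne] with n hn
  obtain ⟨hn0, hnw⟩ := hn
  rw [dseC_of_ne w hn0]
  have h4 : (n : ℂ) ≠ 0 := Int.cast_ne_zero.mpr hn0
  have h5 : w - n ≠ 0 := sub_ne_zero.mpr (Ne.symm hnw)
  field_simp
  ring

/-- **the partial fraction expansion of the cotangent** as a sum over `ℤ` -/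
theorem dse_hasSum_C {w : ℂ} (hw : w ∈ integerComplement) :
    HasSum (dseC w) (π * cot (π * w)) := by
  have hs := dse_summable_C w
  have h1 := hs.hasSum.nat_add_neg
  have h2 : HasSum (fun k : ℕ => dseC w ((k + 1 : ℕ) : ℤ) + dseC w (-((k + 1 : ℕ) : ℤ)))
      (π * cot (π * w) - 1 / w) := by
    have := (summable_cotTerm hw).hasSum
    rw [← cot_series_rep' hw] at this
    refine this.congr_fun ?_
    intro k
    have hk : ((k + 1 : ℕ) : ℤ) ≠ 0 := by positivity
    have hk' : -((k + 1 : ℕ) : ℤ) ≠ 0 := neg_ne_zero.mpr hk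
    rw [dseC_of_ne w hk, dseC_of_ne w hk', cotTerm]
    push_cast
    rw [sub_neg_eq_add]
    have : (1 : ℂ) / (-((k : ℂ) + 1)) = -(1 / ((k : ℂ) + 1)) := div_neg _
    rw [this]
    ring
  have h3 := (hasSum_nat_add_iff (f := fun n : ℕ => dseC w (n : ℤ) + dseC w (-(n : ℤ))) 1).mp h2
  have h4 := h1.unique h3
  simp only [Finset.range_one, Finset.sum_singleton, Nat.cast_zero, neg_zero, dseC_zero] at h4
  have h5 : ∑' n, dseC w n = π * cot (π * w) := by linear_combination h4
  rw [← h5]
  exact hs.hasSum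

/-- the cotangent through exponentials -/
theorem dse_pi_cot_eq (w : ℂ) (hw : cexp (2 * π * I * w) ≠ 1) :
    π * cot (π * w) = π * I * ((cexp (2 * π * I * w) + 1) / (cexp (2 * π * I * w) - 1)) := by
  rw [Complex.cot_pi_eq_exp_ratio]
  set E := cexp (2 * π * I * w) with hE
  have h1 : E - 1 ≠ 0 := sub_ne_zero.mpr hw
  have h2 : 1 - E ≠ 0 := by
    intro h
    apply h1
    linear_combination -h
  have h3 : I * (1 - E) ≠ 0 := mul_ne_zero I_ne_zero h2
  rw [mul_div_assoc', mul_div_assoc', div_eq_div_iff h3 h1]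
  linear_combination ((π : ℂ) * (E + 1) * (E - 1)) * I_sq

/-- a pair of cotangents through exponentials -/
theorem dse_pi_cot_pair (q u : ℂ) (hq : q ≠ 0) (hu : u ≠ 0) (m : ℕ) (h1 : q ^ (m + 1) * u⁻¹ ≠ 1)
    (h2 : q ^ (m + 1) * u ≠ 1) :
    π * I * ((u * (q ^ (m + 1))⁻¹ + 1) / (u * (q ^ (m + 1))⁻¹ - 1))
      + π * I * ((u * q ^ (m + 1) + 1) / (u * q ^ (m + 1) - 1)) = 2 * π * I * dseTermL q u m := by
  have hqm : q ^ (m + 1) ≠ 0 := pow_ne_zero _ hq
  set Q := q ^ (m + 1) with hQ
  have e1 : u * Q⁻¹ - 1 ≠ 0 := by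
    intro h
    apply h1
    have : u = Q := by
      field_simp at h
      linear_combination h
    rw [this]
    field_simp
  have e2 : u * Q - 1 ≠ 0 := by
    intro h
    apply h2
    linear_combination h
  have e3 : 1 - Q * u⁻¹ ≠ 0 := by
    intro h
    apply h1
    linear_combination -h
  have e4 : 1 - Q * u ≠ 0 := by
    intro h
    apply h2
    linear_combination -h
  have e5 : u - Q ≠ 0 := by
    intro h
    apply e1
    have : u = Q := sub_eq_zero.mp h
    rw [this]
    field_simp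
    ring
  have e6 : 1 - u * Q ≠ 0 := by
    intro h
    apply e4
    linear_combination h
  rw [dseTermL, dseG, dseG, ← hQ]
  field_simp
  ring

end Fermat.Agent.DS
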