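/-
DS-E, file 2: the Weierstrass zeta function of the lattice `ℤτ + ℤ` as an absolutely convergent
lattice sum, and its homogeneity under `SL(2,ℤ)`.
-/
import Mathlib

set_option autoImplicit false

noncomputable section

namespace Fermat.Agent.DS

open Complex Filter Topology UpperHalfPlane Matrix EisensteinSeries
open scoped Real MatrixGroups

/-- the lattice point `x₀ τ + x₁` -/
def dseOm (τ : ℍ) (x : Fin 2 → ℤ) : ℂ := x 0 * (τ : ℂ) + x 1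

theorem dseOm_ne_zero (τ : ℍ) {x : Fin 2 → ℤ} (hx : x ≠ 0) : dseOm τ x ≠ 0 := by
  have := r_mul_max_le τ hx
  intro h
  rw [dseOm] at h
  rw [h, norm_zero] at this
  have h1 : 0 < r τ * ‖x‖ := mul_pos (r_pos τ) (norm_pos_iff.mpr hx)
  linarith

/-- the summand of the Weierstrass zeta function -/
def dseW (z : ℂ) (τ : ℍ) (x : Fin 2 → ℤ) : ℂ :=
  if x = 0 then 1 / z else 1 / (z - dseOm τ x) + 1 / dseOm τ x + z / (dseOm τ x) ^ 2

/-- the Weierstrass zeta function of `ℤτ + ℤ` -/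
def dseZeta (z : ℂ) (τ : ℍ) : ℂ := ∑' x : Fin 2 → ℤ, dseW z τ x

theorem dse_tendsto_norm_cofinite : Tendsto (fun x : Fin 2 → ℤ => ‖x‖) cofinite atTop := by
  have := tendsto_norm_cocompact_atTop (E := Fin 2 → ℤ)
  rwa [cocompact_eq_cofinite] at this

theorem dse_isBigO_inv_sub (z : ℂ) (τ : ℍ) :
    (fun x : Fin 2 → ℤ => (z - dseOm τ x)⁻¹) =O[cofinite] fun x => ‖x‖⁻¹ := by
  have hr := r_pos τ
  refine Asymptotics.IsBigO.of_bound (2 / r τ) ?_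
  have h1 : ∀ᶠ x : Fin 2 → ℤ in cofinite, 2 * ‖z‖ / r τ + 1 ≤ ‖x‖ :=
    dse_tendsto_norm_cofinite.eventually (eventually_ge_atTop _)
  filter_upwards [h1] with x hx
  have hx0 : x ≠ 0 := by
    rintro rfl
    rw [norm_zero] at hx
    have : 0 ≤ 2 * ‖z‖ / r τ := by positivity
    linarith
  have hxpos : 0 < ‖x‖ := norm_pos_iff.mpr hx0
  have h2 : r τ * ‖x‖ ≤ ‖dseOm τ x‖ := r_mul_max_le τ hx0
  have h3 : 2 * ‖z‖ ≤ r τ * ‖x‖ := by
    have : 2 * ‖z‖ / r τ ≤ ‖x‖ := by linarith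
    rw [div_le_iff₀ hr] at this
    linarith
  have h4 : r τ * ‖x‖ / 2 ≤ ‖z - dseOm τ x‖ := by
    have := norm_sub_norm_le (dseOm τ x) z
    rw [norm_sub_rev] at this
    linarith
  have h5 : 0 < r τ * ‖x‖ / 2 := by positivity
  rw [norm_inv, norm_inv, norm_norm]
  calc ‖z - dseOm τ x‖⁻¹ ≤ (r τ * ‖x‖ / 2)⁻¹ := inv_anti₀ h5 h4
    _ = 2 / r τ * ‖x‖⁻¹ := by field_simp

theorem dse_isBigO_inv_om (τ : ℍ) :
    (fun x : Fin 2 → ℤ => (dseOm τ x)⁻¹) =O[cofinite] fun x => ‖x‖⁻¹ := by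
  have := isBigO_linear_add_const_vec τ 0 0
  simpa [dseOm] using this

theorem dseW_eq (z : ℂ) (τ : ℍ) {x : Fin 2 → ℤ} (hx : x ≠ 0) (hz : z ≠ dseOm τ x) :
    dseW z τ x = z ^ 2 * ((dseOm τ x)⁻¹ * (dseOm τ x)⁻¹ * (z - dseOm τ x)⁻¹) := by
  have h1 := dseOm_ne_zero τ hx
  have h2 : z - dseOm τ x ≠ 0 := sub_ne_zero.mpr hz
  rw [dseW, if_neg hx]
  field_simp
  ring

theorem dse_summable_W (z : ℂ) (τ : ℍ) : Summable (dseW z τ) := by
  apply summable_of_isBigO_rpow_norm (a := 3) (by norm_num)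
  have h1 : (fun x : Fin 2 → ℤ => z ^ 2 * ((dseOm τ x)⁻¹ * (dseOm τ x)⁻¹ * (z - dseOm τ x)⁻¹))
      =O[cofinite] fun x => (‖x‖ ^ (3 : ℝ))⁻¹ := by
    have := (((dse_isBigO_inv_om τ).mul (dse_isBigO_inv_om τ)).mul
      (dse_isBigO_inv_sub z τ)).const_mul_left (z ^ 2)
    refine this.trans (Asymptotics.IsBigO.of_bound 1 (Eventually.of_forall fun x => ?_))
    rw [one_mul]
    apply le_of_eq
    have h3 : ‖x‖ ^ (3 : ℝ) = ‖x‖ ^ (3 : ℕ) := by
      rw [← Real.rpow_natCast]; norm_num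
    rw [h3]
    simp only [norm_mul, norm_inv, norm_norm, norm_pow]
    ring
  refine Asymptotics.IsBigO.trans (Asymptotics.IsBigO.of_bound 1 ?_) h1
  have hfin : ∀ᶠ x : Fin 2 → ℤ in cofinite, 2 * ‖z‖ / r τ + 1 ≤ ‖x‖ :=
    dse_tendsto_norm_cofinite.eventually (eventually_ge_atTop _)
  filter_upwards [hfin] with x hx
  have hr := r_pos τ
  have hx0 : x ≠ 0 := by
    rintro rfl
    rw [norm_zero] at hx
    have : 0 ≤ 2 * ‖z‖ / r τ := by positivity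
    linarith
  have hz : z ≠ dseOm τ x := by
    intro h
    have h2 : r τ * ‖x‖ ≤ ‖dseOm τ x‖ := r_mul_max_le τ hx0
    rw [← h] at h2
    have : 2 * ‖z‖ / r τ < ‖x‖ := by linarith
    rw [div_lt_iff₀ hr] at this
    have hz0 := norm_nonneg z
    nlinarith
  rw [dseW_eq z τ hx0 hz, one_mul]

theorem dse_summable_W_prod (z : ℂ) (τ : ℍ) :
    Summable fun p : ℤ × ℤ => dseW z τ ![p.1, p.2] := by
  apply (finTwoArrowEquiv _).symm.summable_iff.mpr (dse_summable_W z τ)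

/-- the sum over `ℤ × ℤ`, rows first -/
theorem dseZeta_eq_tsum_tsum (z : ℂ) (τ : ℍ) :
    dseZeta z τ = ∑' m : ℤ, ∑' n : ℤ, dseW z τ ![m, n] := by
  rw [dseZeta, ← (finTwoArrowEquiv _).symm.tsum_eq]
  exact Summable.tsum_prod' (dse_summable_W_prod z τ) ((dse_summable_W_prod z τ).prod_factor)

/-! ### Homogeneity -/

theorem dse_coe_mul_inv (γ : SL(2, ℤ)) :
    (γ : Matrix (Fin 2) (Fin 2) ℤ) * ((γ⁻¹ : SL(2, ℤ)) : Matrix (Fin 2) (Fin 2) ℤ) = 1 := by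
  have h : γ * γ⁻¹ = 1 := mul_inv_cancel γ
  have := congrArg (fun A : SL(2, ℤ) => (A : Matrix (Fin 2) (Fin 2) ℤ)) h
  exact this

theorem dse_coe_inv_mul (γ : SL(2, ℤ)) :
    ((γ⁻¹ : SL(2, ℤ)) : Matrix (Fin 2) (Fin 2) ℤ) * (γ : Matrix (Fin 2) (Fin 2) ℤ) = 1 := by
  have h : γ⁻¹ * γ = 1 := inv_mul_cancel γ
  have := congrArg (fun A : SL(2, ℤ) => (A : Matrix (Fin 2) (Fin 2) ℤ)) h
  exact this

/-- right multiplication by `γ ∈ SL(2,ℤ)` as a permutation of `ℤ²` -/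
def dseVecEquiv (γ : SL(2, ℤ)) : (Fin 2 → ℤ) ≃ (Fin 2 → ℤ) where
  toFun v := v ᵥ* (γ : Matrix (Fin 2) (Fin 2) ℤ)
  invFun v := v ᵥ* ((γ⁻¹ : SL(2, ℤ)) : Matrix (Fin 2) (Fin 2) ℤ)
  left_inv v := by
    show (v ᵥ* (γ : Matrix (Fin 2) (Fin 2) ℤ)) ᵥ* ((γ⁻¹ : SL(2, ℤ)) : Matrix (Fin 2) (Fin 2) ℤ) = v
    rw [vecMul_vecMul, dse_coe_mul_inv, vecMul_one]
  right_inv v := by
    show (v ᵥ* ((γ⁻¹ : SL(2, ℤ)) : Matrix (Fin 2) (Fin 2) ℤ)) ᵥ* (γ : Matrix (Fin 2) (Fin 2) ℤ) = v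
    rw [vecMul_vecMul, dse_coe_inv_mul, vecMul_one]

theorem dseVecEquiv_apply (γ : SL(2, ℤ)) (v : Fin 2 → ℤ) :
    dseVecEquiv γ v = v ᵥ* (γ : Matrix (Fin 2) (Fin 2) ℤ) := rfl

theorem dseOm_smul (γ : SL(2, ℤ)) (τ : ℍ) (x : Fin 2 → ℤ) :
    dseOm (γ • τ) x = dseOm τ (x ᵥ* (γ : Matrix (Fin 2) (Fin 2) ℤ)) / denom γ τ := by
  simp only [dseOm, vecMul, vec2_dotProduct, denom, UpperHalfPlane.specialLinearGroup_apply]
  have h (a b c d u v : ℂ) (hc : c * (τ : ℂ) + d ≠ 0) :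
      u * ((a * τ + b) / (c * τ + d)) + v =
      ((u * a + v * c) * τ + (u * b + v * d)) / (c * τ + d) := by
    replace hc : (τ : ℂ) * c + d ≠ 0 := by convert hc using 1; ring
    field_simp
    ring
  simpa using h (hc := denom_ne_zero γ τ) ..

theorem dseW_smul (γ : SL(2, ℤ)) (τ : ℍ) (z : ℂ) (x : Fin 2 → ℤ) :
    dseW (z / denom γ τ) (γ • τ) x
      = denom γ τ * dseW z τ (x ᵥ* (γ : Matrix (Fin 2) (Fin 2) ℤ)) := by
  have hd := denom_ne_zero γ τ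
  by_cases hx : x = 0
  · subst hx
    simp only [dseW, zero_vecMul, if_true]
    field_simp
  · have hx' : x ᵥ* (γ : Matrix (Fin 2) (Fin 2) ℤ) ≠ 0 := by
      intro h
      apply hx
      have := (dseVecEquiv γ).injective (a₁ := x) (a₂ := 0) (by
        rw [dseVecEquiv_apply, dseVecEquiv_apply, h, zero_vecMul])
      exact this
    rw [dseW, if_neg hx, dseW, if_neg hx', dseOm_smul]
    have h1 := dseOm_ne_zero τ hx'
    set ω := dseOm τ (x ᵥ* (γ : Matrix (Fin 2) (Fin 2) ℤ)) with hω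
    set j := denom γ τ with hj
    by_cases hz : z - ω = 0
    · have hz' : z / j - ω / j = 0 := by
        rw [← sub_div, hz, zero_div]
      rw [hz, hz', div_zero]
      field_simp
      ring
    · have hz' : z / j - ω / j ≠ 0 := by
        rw [← sub_div]
        exact div_ne_zero hz hd
      have e1 : (1 : ℂ) / (z / j - ω / j) = j * (1 / (z - ω)) := by
        rw [← sub_div]
        field_simp
      rw [e1]
      field_simp

/-- **homogeneity of the zeta function** -/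
theorem dseZeta_smul (γ : SL(2, ℤ)) (τ : ℍ) (z : ℂ) :
    dseZeta (z / denom γ τ) (γ • τ) = denom γ τ * dseZeta z τ := by
  rw [dseZeta, dseZeta]
  simp_rw [dseW_smul]
  rw [tsum_mul_left]
  congr 1
  exact (dseVecEquiv γ).tsum_eq (dseW z τ)

end Fermat.Agent.DS
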