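/-
DS-E, file 4: **the key identity** `ζ_τ(z) = G₂(τ) z + Z(q,u)` between the Weierstrass zeta function
of `ℤτ+ℤ` (absolutely convergent lattice sum), Mathlib's Eisenstein series `G2` and the series
`Z(q,u)` (`q = e^{2πiτ}`, `u = e^{2πiz}`).
-/
import Mathlib
import Fermat.Agent.Lib.DS.Eis1.Lattice
import Fermat.Agent.Lib.DS.Eis1.Cot

set_option autoImplicit false

noncomputable section

namespace Fermat.Agent.DS

open UpperHalfPlane hiding I
open Complex Filter Topology Matrix EisensteinSeries Finset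
open scoped Real MatrixGroups

/-- `z` is not a lattice point of `ℤτ + ℤ` -/
def DseOff (z : ℂ) (τ : ℍ) : Prop := ∀ m n : ℤ, z ≠ m * (τ : ℂ) + n

theorem DseOff.sub_mem {z : ℂ} {τ : ℍ} (h : DseOff z τ) (m : ℤ) :
    z - m * (τ : ℂ) ∈ integerComplement := by
  rw [mem_integerComplement_iff]
  rintro ⟨n, hn⟩
  apply h m n
  linear_combination -hn

theorem dse_int_mul_mem (τ : ℍ) {m : ℤ} (hm : m ≠ 0) : (m : ℂ) * (τ : ℂ) ∈ integerComplement := by
  rw [mem_integerComplement_iff]
  rintro ⟨n, hn⟩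
  have := congrArg Complex.im hn
  simp only [intCast_im, mul_im, intCast_re, zero_mul, add_zero, UpperHalfPlane.coe_im] at this
  have h1 : (m : ℝ) ≠ 0 := Int.cast_ne_zero.mpr hm
  have h2 := τ.im_pos.ne'
  exact mul_ne_zero h1 h2 this.symm

/-- the `m`-th row of the lattice sum -/
def dseRowC (z : ℂ) (τ : ℍ) (m : ℤ) : ℂ :=
  π * cot (π * (z - m * (τ : ℂ))) + if m = 0 then 0 else π * cot (π * (m * (τ : ℂ)))

theorem dseW_row (z : ℂ) (τ : ℍ) (m n : ℤ) :
    dseW z τ ![m, n] = dseC (z - m * (τ : ℂ)) n + (if m = 0 then 0 else dseC (m * (τ : ℂ)) (-n))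
      + z * eisSummand 2 ![m, n] τ := by
  by_cases hm : m = 0
  · subst hm
    simp only [if_true, add_zero, Int.cast_zero, zero_mul, sub_zero]
    by_cases hn : n = 0
    · subst hn
      have : (![0, 0] : Fin 2 → ℤ) = 0 := by
        funext i; fin_cases i <;> rfl
      rw [dseW, if_pos this, dseC_zero]
      simp [eisSummand]
    · have : (![0, n] : Fin 2 → ℤ) ≠ 0 := by
        intro h
        have := congrFun h 1
        simp at this
        exact hn this
      rw [dseW, if_neg this, dseC_of_ne z hn]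
      simp only [dseOm, eisSummand, Matrix.cons_val_zero, Matrix.cons_val_one, Int.cast_zero,
        zero_mul, zero_add]
      rw [_root_.zpow_neg, zpow_ofNat]
      ring
  · have hx : (![m, n] : Fin 2 → ℤ) ≠ 0 := by
      intro h
      have := congrFun h 0
      simp at this
      exact hm this
    rw [dseW, if_neg hx, if_neg hm]
    simp only [dseOm, eisSummand, Matrix.cons_val_zero, Matrix.cons_val_one]
    by_cases hn : n = 0
    · subst hn
      rw [dseC_zero, neg_zero, dseC_zero, _root_.zpow_neg, zpow_ofNat]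
      simp only [Int.cast_zero, add_zero]
      ring
    · have hn' : -n ≠ 0 := neg_ne_zero.mpr hn
      rw [dseC_of_ne _ hn, dseC_of_ne _ hn', _root_.zpow_neg, zpow_ofNat]
      have h1 : ((n : ℤ) : ℂ) ≠ 0 := Int.cast_ne_zero.mpr hn
      push_cast
      rw [sub_neg_eq_add]
      have h2 : (1 : ℂ) / (-(n : ℂ)) = -(1 / (n : ℂ)) := div_neg _
      rw [h2]
      have h3 : z - (m : ℂ) * (τ : ℂ) - (n : ℂ) = z - ((m : ℂ) * (τ : ℂ) + (n : ℂ)) := by ring
      rw [h3]
      ring

/-- the rows of the lattice sum -/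
theorem dse_hasSum_row {z : ℂ} {τ : ℍ} (h : DseOff z τ) (m : ℤ) :
    HasSum (fun n : ℤ => dseW z τ ![m, n]) (dseRowC z τ m + z * e2Summand m τ) := by
  have h1 := dse_hasSum_C (h.sub_mem m)
  have h2 : HasSum (fun n : ℤ => if m = 0 then 0 else dseC (m * (τ : ℂ)) (-n))
      (if m = 0 then 0 else π * cot (π * (m * (τ : ℂ)))) := by
    by_cases hm : m = 0
    · simp only [hm, if_true]
      exact hasSum_zero
    · simp only [hm, if_false]
      have := dse_hasSum_C (dse_int_mul_mem τ hm)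
      exact (Equiv.neg ℤ).hasSum_iff.mpr this
  have h3 : HasSum (fun n : ℤ => z * eisSummand 2 ![m, n] τ) (z * e2Summand m τ) :=
    (e2Summand_summable m τ).hasSum.mul_left z
  have := (h1.add h2).add h3
  rw [dseRowC]
  refine this.congr_fun ?_
  intro n
  exact dseW_row z τ m n

theorem dse_sum_Icc (f : ℤ → ℂ) (N : ℕ) :
    ∑ m ∈ Icc (-(N : ℤ)) N, f m = f 0 + ∑ k ∈ range N, (f ((k : ℤ) + 1) + f (-((k : ℤ) + 1))) := by
  induction N with
  | zero => simp
  | succ N ih =>
    rw [Nat.cast_add, Nat.cast_one, Finset.sum_Icc_succ_eq_add_endpoints, ih, sum_range_succ]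
    ring

theorem dse_cot_neg (w : ℂ) : cot (-w) = -cot w := by
  rw [Complex.cot, Complex.cot, Complex.cos_neg, Complex.sin_neg, div_neg]

theorem dseRowC_pair {z : ℂ} {τ : ℍ} (h : DseOff z τ) (k : ℕ) :
    dseRowC z τ ((k : ℤ) + 1) + dseRowC z τ (-((k : ℤ) + 1))
      = 2 * π * I * dseTermL (cexp (2 * π * I * τ)) (cexp (2 * π * I * z)) k := by
  have hk : ((k : ℤ) + 1) ≠ 0 := by positivity
  have hk' : -((k : ℤ) + 1) ≠ 0 := neg_ne_zero.mpr hk
  rw [dseRowC, dseRowC, if_neg hk, if_neg hk']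
  have e0 : π * cot (π * (((-((k : ℤ) + 1) : ℤ) : ℂ) * (τ : ℂ)))
      = -(π * cot (π * ((((k : ℤ) + 1 : ℤ) : ℂ) * (τ : ℂ)))) := by
    rw [← mul_neg, ← dse_cot_neg]
    congr 2
    push_cast
    ring
  rw [e0]
  set q := cexp (2 * π * I * τ) with hq
  set u := cexp (2 * π * I * z) with hu
  have hq0 : q ≠ 0 := exp_ne_zero _
  have hu0 : u ≠ 0 := exp_ne_zero _
  -- the exponentials
  have hE1 : cexp (2 * π * I * (z - (((k : ℤ) + 1 : ℤ) : ℂ) * (τ : ℂ))) = u * (q ^ (k + 1))⁻¹ := by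
    rw [hq, hu, ← Complex.exp_nat_mul, ← Complex.exp_neg, ← Complex.exp_add]
    congr 1
    push_cast
    ring
  have hE2 : cexp (2 * π * I * (z - (((-((k : ℤ) + 1) : ℤ)) : ℂ) * (τ : ℂ))) = u * q ^ (k + 1) := by
    rw [hq, hu, ← Complex.exp_nat_mul, ← Complex.exp_add]
    congr 1
    push_cast
    ring
  have hne : ∀ (j : ℤ), cexp (2 * π * I * (z - (j : ℂ) * (τ : ℂ))) ≠ 1 := by
    intro j hj
    rw [Complex.exp_eq_one_iff] at hj
    obtain ⟨n, hn⟩ := hj
    apply h j n
    have h2 : (2 * π * I : ℂ) ≠ 0 := by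
      simp [Real.pi_ne_zero, I_ne_zero]
    have : z - (j : ℂ) * (τ : ℂ) = n := by
      apply mul_left_cancel₀ h2
      rw [hn]; ring
    linear_combination this
  have n1 := hne ((k : ℤ) + 1)
  have n2 := hne (-((k : ℤ) + 1))
  rw [dse_pi_cot_eq _ n1, dse_pi_cot_eq _ n2, hE1, hE2]
  rw [hE1] at n1
  rw [hE2] at n2
  have c1 : q ^ (k + 1) * u⁻¹ ≠ 1 := by
    intro hc
    apply n1
    have : u = q ^ (k + 1) := by
      field_simp at hc
      exact hc.symm
    rw [this]
    field_simp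
  have c2 : q ^ (k + 1) * u ≠ 1 := by
    intro hc
    apply n2
    rw [mul_comm]; exact hc
  have := dse_pi_cot_pair q u hq0 hu0 k c1 c2
  linear_combination this

/-- **the key identity** -/
theorem dseZeta_eq {z : ℂ} {τ : ℍ} (h : DseOff z τ) :
    dseZeta z τ = G2 τ * z + dseZ (cexp (2 * π * I * τ)) (cexp (2 * π * I * z)) := by
  set q := cexp (2 * π * I * τ) with hq
  set u := cexp (2 * π * I * z) with hu
  -- the sum of the rows
  have hrows : HasSum (fun m : ℤ => dseRowC z τ m + z * e2Summand m τ) (dseZeta z τ) := by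
    have h1 := (dse_summable_W_prod z τ).hasSum.prod_fiberwise
      (fun m => (dse_hasSum_row h m))
    rw [dseZeta_eq_tsum_tsum]
    have h2 : ∑' p : ℤ × ℤ, dseW z τ ![p.1, p.2] = ∑' m : ℤ, ∑' n : ℤ, dseW z τ ![m, n] :=
      Summable.tsum_prod' (dse_summable_W_prod z τ) ((dse_summable_W_prod z τ).prod_factor)
    rw [← h2]
    exact h1
  -- symmetric partial sums
  have ht : Tendsto (fun N : ℕ => ∑ m ∈ Icc (-(N : ℤ)) N, (dseRowC z τ m + z * e2Summand m τ))
      atTop (𝓝 (dseZeta z τ)) := by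
    have := hrows.comp (SummationFilter.symmetricIcc_eq_map_Icc_nat ▸
      (SummationFilter.symmetricIcc ℤ).le_atTop)
    exact this
  have hG : Tendsto (fun N : ℕ => ∑ m ∈ Icc (-(N : ℤ)) N, e2Summand m τ) atTop (𝓝 (G2 τ)) := by
    have := hasSum_e2Summand_symmetricIcc τ
    rw [← G2_eq_tsum_cexp] at this
    exact SummationFilter.hasSum_symmetricIcc_iff.mp this
  have hqn : ‖q‖ < 1 := by
    rw [hq]
    exact UpperHalfPlane.norm_exp_two_pi_I_lt_one τ
  have hL : Tendsto (fun N : ℕ => ∑ k ∈ range N, dseTermL q u k) atTop (𝓝 (dseL q u)) :=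
    (dse_summable_termL hqn u).hasSum.tendsto_sum_nat
  have hu1 : u ≠ 1 := by
    intro hu1
    rw [hu, Complex.exp_eq_one_iff] at hu1
    obtain ⟨n, hn⟩ := hu1
    apply h 0 n
    have h2 : (2 * π * I : ℂ) ≠ 0 := by
      simp [Real.pi_ne_zero, I_ne_zero]
    have : z = n := by
      apply mul_left_cancel₀ h2
      rw [hn]; ring
    rw [this]; push_cast; ring
  have hrow0 : dseRowC z τ 0 = π * I * ((u + 1) / (u - 1)) := by
    rw [dseRowC, if_pos rfl, add_zero, Int.cast_zero, zero_mul, sub_zero, dse_pi_cot_eq z hu1]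
  have hC : Tendsto (fun N : ℕ => ∑ m ∈ Icc (-(N : ℤ)) N, dseRowC z τ m) atTop
      (𝓝 (dseZ q u)) := by
    have e : ∀ N : ℕ, ∑ m ∈ Icc (-(N : ℤ)) N, dseRowC z τ m
        = π * I * ((u + 1) / (u - 1)) + 2 * π * I * ∑ k ∈ range N, dseTermL q u k := by
      intro N
      rw [dse_sum_Icc, hrow0, mul_sum]
      congr 1
      refine sum_congr rfl fun k _ => ?_
      exact dseRowC_pair h k
    simp_rw [e]
    exact tendsto_const_nhds.add (hL.const_mul _)
  have hsum : Tendsto (fun N : ℕ => ∑ m ∈ Icc (-(N : ℤ)) N,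
      (dseRowC z τ m + z * e2Summand m τ)) atTop (𝓝 (dseZ q u + z * G2 τ)) := by
    have := hC.add (hG.const_mul z)
    refine this.congr fun N => ?_
    rw [sum_add_distrib, mul_sum]
  have := tendsto_nhds_unique ht hsum
  rw [this]
  ring

end Fermat.Agent.DS
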