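/-
DS-E, file 5: the modular transformation law of `Z(q,u)`:
`Z(e(γτ), e(z/(cτ+d))) = (cτ+d) Z(e(τ), e(z)) + 2πi c z` for all `γ ∈ SL(2,ℤ)`,
and the weight-one functions `F_{(a,b)}(τ) = Z(e(τ), e((aτ+b)/ℓ)) + 2πi a/ℓ`.
-/
import Mathlib
import Fermat.Agent.Lib.DS.Eis1.Key

set_option autoImplicit false

noncomputable section

namespace Fermat.Agent.DS

open UpperHalfPlane hiding I
open Complex Filter Topology Matrix EisensteinSeries Finset ModularForm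
open scoped Real MatrixGroups

theorem DseOff.smul {z : ℂ} {τ : ℍ} (h : DseOff z τ) (γ : SL(2, ℤ)) :
    DseOff (z / denom γ τ) (γ • τ) := by
  intro m n hmn
  have hd := denom_ne_zero γ τ
  have h1 : (m : ℂ) * ((γ • τ : ℍ) : ℂ) + n = dseOm (γ • τ) ![m, n] := by
    simp [dseOm]
  rw [h1, dseOm_smul, div_left_inj' hd] at hmn
  exact h _ _ hmn

theorem dse_G2_smul (γ : SL(2, ℤ)) (τ : ℍ) :
    G2 (γ • τ) = denom γ τ ^ 2 * G2 τ - 2 * π * I * (γ 1 0 : ℤ) * denom γ τ := by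
  have h := congrFun (G2_slash_action γ) τ
  rw [SL_slash_apply] at h
  simp only [Pi.sub_apply, D2] at h
  have hd := denom_ne_zero γ τ
  have h2 : G2 (γ • τ) = (G2 τ - 2 * π * I * (γ 1 0 : ℤ) / denom γ τ) * denom γ τ ^ 2 := by
    rw [← h, _root_.zpow_neg, zpow_ofNat]
    field_simp
  rw [h2]
  field_simp

/-- **the modular transformation law of `Z`** -/
theorem dseZ_smul {z : ℂ} {τ : ℍ} (h : DseOff z τ) (γ : SL(2, ℤ)) :
    dseZ (cexp (2 * π * I * ((γ • τ : ℍ) : ℂ))) (cexp (2 * π * I * (z / denom γ τ)))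
      = denom γ τ * dseZ (cexp (2 * π * I * τ)) (cexp (2 * π * I * z))
        + 2 * π * I * (γ 1 0 : ℤ) * z := by
  have h1 := dseZeta_eq (h.smul γ)
  have h2 := dseZeta_eq h
  have h3 := dseZeta_smul γ τ z
  have hd := denom_ne_zero γ τ
  rw [h1, h2, dse_G2_smul] at h3
  have : (denom γ τ ^ 2 * G2 τ - 2 * π * I * (γ 1 0 : ℤ) * denom γ τ) * (z / denom γ τ)
      = denom γ τ * G2 τ * z - 2 * π * I * (γ 1 0 : ℤ) * z := by
    field_simp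
  rw [this] at h3
  linear_combination h3

/-- the torsion point `(aτ+b)/ℓ` -/
def dsePt (ℓ : ℕ) (a b : ℤ) (τ : ℍ) : ℂ := ((a : ℂ) * (τ : ℂ) + b) / ℓ

theorem dsePt_off {ℓ : ℕ} (hℓ : ℓ ≠ 0) {a b : ℤ} (hab : ¬ ((ℓ : ℤ) ∣ a ∧ (ℓ : ℤ) ∣ b)) (τ : ℍ) :
    DseOff (dsePt ℓ a b τ) τ := by
  intro m n hmn
  apply hab
  have hℓ' : (ℓ : ℂ) ≠ 0 := Nat.cast_ne_zero.mpr hℓ
  rw [dsePt, div_eq_iff hℓ'] at hmn
  have h1 : ((a - ℓ * m : ℤ) : ℂ) * (τ : ℂ) = ((ℓ * n - b : ℤ) : ℂ) := by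
    push_cast
    linear_combination hmn
  have h2 := congrArg Complex.im h1
  simp only [mul_im, intCast_re, intCast_im, zero_mul, add_zero, UpperHalfPlane.coe_im] at h2
  have h3 : ((a - ℓ * m : ℤ) : ℝ) = 0 := by
    rcases mul_eq_zero.mp h2 with h | h
    · exact h
    · exact absurd h τ.im_pos.ne'
  have h4 : a - ℓ * m = 0 := by exact_mod_cast h3
  rw [h4] at h1
  simp only [Int.cast_zero, zero_mul] at h1
  have h5 : (ℓ : ℤ) * n - b = 0 := by exact_mod_cast h1.symm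
  exact ⟨⟨m, by linarith⟩, ⟨n, by linarith⟩⟩

/-- the weight-one function `F_{(a,b)}` -/
def dseF (ℓ : ℕ) (a b : ℤ) (τ : ℍ) : ℂ :=
  dseZ (cexp (2 * π * I * τ)) (cexp (2 * π * I * dsePt ℓ a b τ)) + 2 * π * I * a / ℓ

/-- **`F_v ∣[1] γ = F_{vγ}`** -/
theorem dseF_slash {ℓ : ℕ} (hℓ : ℓ ≠ 0) {a b : ℤ} (hab : ¬ ((ℓ : ℤ) ∣ a ∧ (ℓ : ℤ) ∣ b))
    (γ : SL(2, ℤ)) :
    (dseF ℓ a b) ∣[(1 : ℤ)] γ = dseF ℓ (a * γ 0 0 + b * γ 1 0) (a * γ 0 1 + b * γ 1 1) := by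
  funext τ
  rw [SL_slash_apply]
  have hd := denom_ne_zero γ τ
  have hℓ' : (ℓ : ℂ) ≠ 0 := Nat.cast_ne_zero.mpr hℓ
  set a' : ℤ := a * γ 0 0 + b * γ 1 0 with ha'
  set b' : ℤ := a * γ 0 1 + b * γ 1 1 with hb'
  have hab' : ¬ ((ℓ : ℤ) ∣ a' ∧ (ℓ : ℤ) ∣ b') := by
    rintro ⟨h1, h2⟩
    apply hab
    have hdet : γ 0 0 * γ 1 1 - γ 0 1 * γ 1 0 = 1 := by
      have := γ.det_coe
      rw [Matrix.det_fin_two] at this
      exact this
    constructor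
    · have : a = a' * γ 1 1 - b' * γ 1 0 := by
        rw [ha', hb']; linear_combination (-a) * hdet
      rw [this]
      exact dvd_sub (Dvd.dvd.mul_right h1 _) (Dvd.dvd.mul_right h2 _)
    · have : b = b' * γ 0 0 - a' * γ 0 1 := by
        rw [ha', hb']; linear_combination (-b) * hdet
      rw [this]
      exact dvd_sub (Dvd.dvd.mul_right h2 _) (Dvd.dvd.mul_right h1 _)
  have hpt : dsePt ℓ a b (γ • τ) = dsePt ℓ a' b' τ / denom γ τ := by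
    rw [dsePt, dsePt, UpperHalfPlane.coe_specialLinearGroup_apply]
    rw [ModularGroup.denom_apply] at hd ⊢
    simp only [algebraMap_int_eq, eq_intCast, ofReal_intCast] at hd ⊢
    rw [ha', hb']
    have hgen (A B C D x y t L : ℂ) (hc : C * t + D ≠ 0) (hL : L ≠ 0) :
        (x * ((A * t + B) / (C * t + D)) + y) / L
          = ((x * A + y * C) * t + (x * B + y * D)) / L / (C * t + D) := by
      replace hc : t * C + D ≠ 0 := by convert hc using 1; ring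
      field_simp
      ring
    have := hgen (γ 0 0 : ℤ) (γ 0 1 : ℤ) (γ 1 0 : ℤ) (γ 1 1 : ℤ) a b τ ℓ hd hℓ'
    rw [this]
    push_cast
    ring
  have hoff := dsePt_off hℓ hab' τ
  rw [dseF, hpt, dseZ_smul hoff γ, dseF]
  have hdet : ((γ 0 0 : ℤ) : ℂ) * (γ 1 1 : ℤ) - (γ 0 1 : ℤ) * (γ 1 0 : ℤ) = 1 := by
    have := γ.det_coe
    rw [Matrix.det_fin_two] at this
    exact_mod_cast this
  rw [_root_.zpow_neg, zpow_one]
  rw [dsePt]
  rw [ModularGroup.denom_apply] at hd ⊢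
  set Z0 := dseZ (cexp (2 * π * I * τ)) (cexp (2 * π * I * (((a' : ℂ) * (τ : ℂ) + b') / ℓ)))
    with hZ0
  set j : ℂ := ((γ 1 0 : ℤ) : ℂ) * (τ : ℂ) + ((γ 1 1 : ℤ) : ℂ) with hj
  have key : 2 * π * I * ((γ 1 0 : ℤ) : ℂ) * (((a' : ℂ) * (τ : ℂ) + b') / ℓ) + 2 * π * I * a / ℓ
      = j * (2 * π * I * a' / ℓ) := by
    rw [hj, ha', hb']
    field_simp
    push_cast
    linear_combination (-(a : ℂ)) * hdet
  have : (j * Z0 + 2 * π * I * ((γ 1 0 : ℤ) : ℂ) * (((a' : ℂ) * (τ : ℂ) + b') / ℓ)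
      + 2 * π * I * a / ℓ) = j * (Z0 + 2 * π * I * a' / ℓ) := by
    rw [mul_add, ← key]
    ring
  rw [this, mul_comm j, mul_assoc, mul_inv_cancel₀ hd, mul_one]

end Fermat.Agent.DS
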