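/-
DS-E, file 6: `F_{(a,b)}` depends only on `(a,b)` modulo `ℓ`.
-/
import Mathlib
import Fermat.Agent.Lib.DS.Eis1.Transform

set_option autoImplicit false

noncomputable section

namespace Fermat.Agent.DS

open UpperHalfPlane hiding I
open Complex Filter Topology Matrix EisensteinSeries Finset ModularForm
open scoped Real MatrixGroups

theorem DseOff.exp_ne_one {z : ℂ} {τ : ℍ} (h : DseOff z τ) : cexp (2 * π * I * z) ≠ 1 := by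
  intro hu1
  rw [Complex.exp_eq_one_iff] at hu1
  obtain ⟨n, hn⟩ := hu1
  apply h 0 n
  have h2 : (2 * π * I : ℂ) ≠ 0 := by
    simp [Real.pi_ne_zero, I_ne_zero]
  have : z = n := by
    apply mul_left_cancel₀ h2
    rw [hn]; ring
  rw [this]; push_cast; ring

theorem dseF_add_right {ℓ : ℕ} (hℓ : ℓ ≠ 0) (a b : ℤ) : dseF ℓ a (b + ℓ) = dseF ℓ a b := by
  funext τ
  have hℓ' : (ℓ : ℂ) ≠ 0 := Nat.cast_ne_zero.mpr hℓ
  have h1 : dsePt ℓ a (b + ℓ) τ = dsePt ℓ a b τ + 1 := by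
    rw [dsePt, dsePt]
    push_cast
    field_simp
    ring
  rw [dseF, dseF, h1]
  congr 2
  rw [mul_add, Complex.exp_add, mul_one, Complex.exp_two_pi_mul_I, mul_one]

theorem dseF_add_left {ℓ : ℕ} (hℓ : ℓ ≠ 0) {a b : ℤ} (hab : ¬ ((ℓ : ℤ) ∣ a ∧ (ℓ : ℤ) ∣ b)) :
    dseF ℓ (a + ℓ) b = dseF ℓ a b := by
  funext τ
  have hℓ' : (ℓ : ℂ) ≠ 0 := Nat.cast_ne_zero.mpr hℓ
  have hab' : ¬ ((ℓ : ℤ) ∣ a + ℓ ∧ (ℓ : ℤ) ∣ b) := by
    rintro ⟨h1, h2⟩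
    exact hab ⟨(dvd_add_left (dvd_refl _)).mp h1, h2⟩
  have h1 : dsePt ℓ (a + ℓ) b τ = dsePt ℓ a b τ + τ := by
    rw [dsePt, dsePt]
    push_cast
    field_simp
    ring
  have hoff := dsePt_off hℓ hab τ
  have hoff' := dsePt_off hℓ hab' τ
  have hu1 := hoff.exp_ne_one
  have hu2 := hoff'.exp_ne_one
  rw [h1, mul_add, Complex.exp_add] at hu2
  rw [dseF, dseF, h1, mul_add, Complex.exp_add,
    dseZ_mul_q (UpperHalfPlane.norm_exp_two_pi_I_lt_one τ) (exp_ne_zero _) (exp_ne_zero _) hu1 hu2]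
  push_cast
  field_simp
  ring

theorem dseF_add_mul_right {ℓ : ℕ} (hℓ : ℓ ≠ 0) (a b k : ℤ) :
    dseF ℓ a (b + ℓ * k) = dseF ℓ a b := by
  induction k using Int.induction_on with
  | zero => simp
  | succ k ih =>
    have : b + (ℓ : ℤ) * ((k : ℤ) + 1) = (b + ℓ * k) + ℓ := by ring
    rw [this, dseF_add_right hℓ, ih]
  | pred k ih =>
    have : b + (ℓ : ℤ) * (-(k : ℤ)) = (b + ℓ * (-(k : ℤ) - 1)) + ℓ := by ring
    rw [← ih, this, dseF_add_right hℓ]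

theorem dseF_add_mul_left {ℓ : ℕ} (hℓ : ℓ ≠ 0) {a b : ℤ} (hab : ¬ ((ℓ : ℤ) ∣ a ∧ (ℓ : ℤ) ∣ b))
    (k : ℤ) : dseF ℓ (a + ℓ * k) b = dseF ℓ a b := by
  have hab' : ∀ j : ℤ, ¬ ((ℓ : ℤ) ∣ a + ℓ * j ∧ (ℓ : ℤ) ∣ b) := by
    rintro j ⟨h1, h2⟩
    exact hab ⟨(dvd_add_left (dvd_mul_right _ _)).mp h1, h2⟩
  induction k using Int.induction_on with
  | zero => simp
  | succ k ih =>
    have : a + (ℓ : ℤ) * ((k : ℤ) + 1) = (a + ℓ * k) + ℓ := by ring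
    rw [this, dseF_add_left hℓ (hab' k), ih]
  | pred k ih =>
    have : a + (ℓ : ℤ) * (-(k : ℤ)) = (a + ℓ * (-(k : ℤ) - 1)) + ℓ := by ring
    rw [← ih, this, dseF_add_left hℓ (hab' _)]

/-- **`F_v` depends only on `v` mod `ℓ`** -/
theorem dseF_congr {ℓ : ℕ} (hℓ : ℓ ≠ 0) {a b a' b' : ℤ} (hab : ¬ ((ℓ : ℤ) ∣ a ∧ (ℓ : ℤ) ∣ b))
    (ha : (ℓ : ℤ) ∣ a' - a) (hb : (ℓ : ℤ) ∣ b' - b) : dseF ℓ a' b' = dseF ℓ a b := by
  obtain ⟨k, hk⟩ := ha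
  obtain ⟨m, hm⟩ := hb
  have e1 : a' = a + ℓ * k := by linarith
  have e2 : b' = b + ℓ * m := by linarith
  rw [e1, e2, dseF_add_mul_right hℓ, dseF_add_mul_left hℓ hab]

end Fermat.Agent.DS
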