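/-
DS-E, file 7: `F_{(a,b)}` (`0 ≤ a < ℓ`) as a holomorphic function `Φ` of `t = e(τ/ℓ)` on the unit
disc; hence `F_{(a,b)}` is holomorphic on `ℍ` and bounded at `i∞`.
-/
import Mathlib
import Fermat.Agent.Lib.DS.Eis1.Period

set_option autoImplicit false

noncomputable section

namespace Fermat.Agent.DS

open UpperHalfPlane hiding I
open Complex Filter Topology Matrix EisensteinSeries Finset ModularForm
open scoped Real MatrixGroups Manifold

theorem dseG_differentiableAt {x : ℂ} (hx : x ≠ 1) : DifferentiableAt ℂ dseG x := by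
  unfold dseG
  refine DifferentiableAt.div differentiableAt_id ((differentiableAt_const _).sub differentiableAt_id)
    ?_
  exact sub_ne_zero.mpr (Ne.symm hx)

/-- the `m`-th term of `Φ` -/
def dsePhiTerm (ℓ a : ℕ) (w : ℂ) (m : ℕ) (t : ℂ) : ℂ :=
  dseG (t ^ (ℓ * (m + 1) - a) * w⁻¹) - dseG (t ^ (ℓ * (m + 1) + a) * w)

/-- `F_{(a,b)}` in the variable `t = e(τ/ℓ)`; `w = e(b/ℓ)` -/
def dsePhi (ℓ a : ℕ) (w : ℂ) (t : ℂ) : ℂ :=
  π * I * ((w * t ^ a + 1) / (w * t ^ a - 1)) + 2 * π * I * ∑' m : ℕ, dsePhiTerm ℓ a w m t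
    + 2 * π * I * a / ℓ

theorem dse_norm_phiTerm_le {ℓ a : ℕ} (ha : a < ℓ) {w : ℂ} (hw : ‖w‖ = 1) {ρ : ℝ} (hρ : ρ < 1)
    {t : ℂ} (ht : ‖t‖ ≤ ρ) (m : ℕ) : ‖dsePhiTerm ℓ a w m t‖ ≤ 2 / (1 - ρ) * ρ ^ (m + 1) := by
  have hρ0 : 0 ≤ ρ := le_trans (norm_nonneg _) ht
  have h1 : m + 1 ≤ ℓ * (m + 1) - a := by
    have : ℓ * (m + 1) = ℓ * m + ℓ := by ring
    have h2 : m ≤ ℓ * m := Nat.le_mul_of_pos_left m (by omega)
    omega
  have h2 : m + 1 ≤ ℓ * (m + 1) + a := by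
    have : m + 1 ≤ ℓ * (m + 1) := Nat.le_mul_of_pos_left (m + 1) (by omega)
    omega
  have hpow : ∀ n : ℕ, m + 1 ≤ n → ‖t‖ ^ n ≤ ρ ^ (m + 1) := by
    intro n hn
    calc ‖t‖ ^ n ≤ ρ ^ n := pow_le_pow_left₀ (norm_nonneg t) ht n
      _ ≤ ρ ^ (m + 1) := pow_le_pow_of_le_one hρ0 hρ.le hn
  have e1 : ‖t ^ (ℓ * (m + 1) - a) * w⁻¹‖ ≤ ρ ^ (m + 1) := by
    rw [norm_mul, norm_pow, norm_inv, hw, inv_one, mul_one]
    exact hpow _ h1
  have e2 : ‖t ^ (ℓ * (m + 1) + a) * w‖ ≤ ρ ^ (m + 1) := by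
    rw [norm_mul, norm_pow, hw, mul_one]
    exact hpow _ h2
  have hρm : ρ ^ (m + 1) ≤ ρ := by
    calc ρ ^ (m + 1) ≤ ρ ^ 1 := pow_le_pow_of_le_one hρ0 hρ.le (by omega)
      _ = ρ := pow_one ρ
  have h3 : 0 < 1 - ρ := by linarith
  calc ‖dsePhiTerm ℓ a w m t‖
      ≤ ‖dseG (t ^ (ℓ * (m + 1) - a) * w⁻¹)‖ + ‖dseG (t ^ (ℓ * (m + 1) + a) * w)‖ :=
        norm_sub_le _ _
    _ ≤ ‖t ^ (ℓ * (m + 1) - a) * w⁻¹‖ / (1 - ρ) + ‖t ^ (ℓ * (m + 1) + a) * w‖ / (1 - ρ) :=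
        add_le_add (dse_norm_G_le hρ (le_trans e1 hρm)) (dse_norm_G_le hρ (le_trans e2 hρm))
    _ ≤ ρ ^ (m + 1) / (1 - ρ) + ρ ^ (m + 1) / (1 - ρ) := by gcongr
    _ = 2 / (1 - ρ) * ρ ^ (m + 1) := by ring

theorem dsePhiTerm_differentiableOn {ℓ a : ℕ} (ha : a < ℓ) {w : ℂ} (hw : ‖w‖ = 1) (m : ℕ) :
    DifferentiableOn ℂ (dsePhiTerm ℓ a w m) (Metric.ball 0 1) := by
  intro t ht
  rw [Metric.mem_ball, dist_zero_right] at ht
  have hpos1 : 0 < ℓ * (m + 1) - a := by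
    have : ℓ * (m + 1) = ℓ * m + ℓ := by ring
    omega
  have hpos2 : 0 < ℓ * (m + 1) + a := by
    have : 0 < ℓ * (m + 1) := Nat.mul_pos (by omega) (by omega)
    omega
  have n1 : t ^ (ℓ * (m + 1) - a) * w⁻¹ ≠ 1 := by
    intro h
    have := congrArg norm h
    rw [norm_mul, norm_pow, norm_inv, hw, inv_one, mul_one, norm_one] at this
    have h2 : ‖t‖ ^ (ℓ * (m + 1) - a) < 1 := pow_lt_one₀ (norm_nonneg t) ht hpos1.ne'
    linarith
  have n2 : t ^ (ℓ * (m + 1) + a) * w ≠ 1 := by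
    intro h
    have := congrArg norm h
    rw [norm_mul, norm_pow, hw, mul_one, norm_one] at this
    have h2 : ‖t‖ ^ (ℓ * (m + 1) + a) < 1 := pow_lt_one₀ (norm_nonneg t) ht hpos2.ne'
    linarith
  apply DifferentiableAt.differentiableWithinAt
  unfold dsePhiTerm
  have hf1 : DifferentiableAt ℂ (fun t : ℂ => t ^ (ℓ * (m + 1) - a) * w⁻¹) t := by fun_prop
  have hf2 : DifferentiableAt ℂ (fun t : ℂ => t ^ (ℓ * (m + 1) + a) * w) t := by fun_prop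
  exact ((dseG_differentiableAt n1).comp t hf1).sub ((dseG_differentiableAt n2).comp t hf2)

/-- `Φ` is holomorphic on the unit disc -/
theorem dsePhi_differentiableOn {ℓ a : ℕ} (ha : a < ℓ) {w : ℂ} (hw : ‖w‖ = 1)
    (hw1 : a = 0 → w ≠ 1) : DifferentiableOn ℂ (dsePhi ℓ a w) (Metric.ball 0 1) := by
  intro t₀ ht₀
  rw [Metric.mem_ball, dist_zero_right] at ht₀
  obtain ⟨ρ, hρ1, hρ2⟩ := exists_between ht₀
  have hρ0 : 0 < ρ := lt_of_le_of_lt (norm_nonneg _) hρ1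
  have hsub : Metric.ball (0 : ℂ) ρ ⊆ Metric.ball 0 1 := Metric.ball_subset_ball hρ2.le
  have hmem : t₀ ∈ Metric.ball (0 : ℂ) ρ := by
    rw [Metric.mem_ball, dist_zero_right]; exact hρ1
  -- the series
  have hser : DifferentiableOn ℂ (fun t => ∑' m : ℕ, dsePhiTerm ℓ a w m t) (Metric.ball 0 ρ) := by
    have hu : Summable fun m : ℕ => 2 / (1 - ρ) * ρ ^ (m + 1) := by
      refine Summable.mul_left _ ?_
      exact (summable_nat_add_iff 1).mpr (summable_geometric_of_lt_one hρ0.le hρ2)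
    refine differentiableOn_tsum_of_summable_norm hu
      (fun m => (dsePhiTerm_differentiableOn ha hw m).mono hsub) Metric.isOpen_ball ?_
    intro m t ht
    rw [Metric.mem_ball, dist_zero_right] at ht
    exact dse_norm_phiTerm_le ha hw hρ2 ht.le m
  have hserAt : DifferentiableAt ℂ (fun t => ∑' m : ℕ, dsePhiTerm ℓ a w m t) t₀ :=
    (hser t₀ hmem).differentiableAt (Metric.isOpen_ball.mem_nhds hmem)
  -- the first term
  have hne : w * t₀ ^ a - 1 ≠ 0 := by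
    intro h
    have h1 : w * t₀ ^ a = 1 := sub_eq_zero.mp h
    rcases Nat.eq_zero_or_pos a with h0 | h0
    · subst h0
      rw [pow_zero, mul_one] at h1
      exact hw1 rfl h1
    · have := congrArg norm h1
      rw [norm_mul, norm_pow, hw, one_mul, norm_one] at this
      have h2 : ‖t₀‖ ^ a < 1 := pow_lt_one₀ (norm_nonneg _) ht₀ h0.ne'
      linarith
  have hfirst : DifferentiableAt ℂ (fun t : ℂ => (w * t ^ a + 1) / (w * t ^ a - 1)) t₀ := by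
    refine DifferentiableAt.div ?_ ?_ hne
    · exact ((differentiableAt_const _).mul (differentiableAt_id.pow _)).add
        (differentiableAt_const _)
    · exact ((differentiableAt_const _).mul (differentiableAt_id.pow _)).sub
        (differentiableAt_const _)
  apply DifferentiableAt.differentiableWithinAt
  unfold dsePhi
  exact (((differentiableAt_const _).mul hfirst).add ((differentiableAt_const _).mul hserAt)).add
    (differentiableAt_const _)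

/-- `F_{(a,b)} = Φ ∘ e(·/ℓ)` -/
theorem dseF_eq_dsePhi {ℓ : ℕ} (hℓ : ℓ ≠ 0) {a : ℕ} (ha : a < ℓ) (b : ℤ) (τ : ℍ) :
    dseF ℓ a b τ = dsePhi ℓ a (cexp (2 * π * I * b / ℓ)) (cexp (2 * π * I * τ / ℓ)) := by
  have hℓ' : (ℓ : ℂ) ≠ 0 := Nat.cast_ne_zero.mpr hℓ
  set t := cexp (2 * π * I * τ / ℓ) with ht
  set w := cexp (2 * π * I * b / ℓ) with hw
  have ht0 : t ≠ 0 := exp_ne_zero _
  have hw0 : w ≠ 0 := exp_ne_zero _
  have hq : cexp (2 * π * I * τ) = t ^ ℓ := by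
    rw [ht, ← Complex.exp_nat_mul]
    congr 1
    field_simp
  have hu : cexp (2 * π * I * dsePt ℓ (a : ℤ) b τ) = w * t ^ a := by
    rw [ht, hw, ← Complex.exp_nat_mul, ← Complex.exp_add, dsePt]
    congr 1
    push_cast
    field_simp
    ring
  rw [dseF, dsePhi, hq, hu, dseZ, dseL]
  have hterm : ∀ m : ℕ, dseTermL (t ^ ℓ) (w * t ^ a) m = dsePhiTerm ℓ a w m t := by
    intro m
    rw [dseTermL, dsePhiTerm]
    have hle : a ≤ ℓ * (m + 1) := by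
      have : ℓ * (m + 1) = ℓ * m + ℓ := by ring
      omega
    have e1 : (t ^ ℓ) ^ (m + 1) * (w * t ^ a)⁻¹ = t ^ (ℓ * (m + 1) - a) * w⁻¹ := by
      rw [← pow_mul, mul_inv, pow_sub₀ t ht0 hle]
      ring
    have e2 : (t ^ ℓ) ^ (m + 1) * (w * t ^ a) = t ^ (ℓ * (m + 1) + a) * w := by
      rw [← pow_mul, pow_add]
      ring
    rw [e1, e2]
  simp_rw [hterm]
  push_cast
  ring

theorem dse_norm_exp_div_lt_one {ℓ : ℕ} (hℓ : ℓ ≠ 0) (z : ℂ) (hz : 0 < z.im) :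
    ‖cexp (2 * π * I * z / ℓ)‖ < 1 := by
  rw [Complex.norm_exp]
  have : (2 * π * I * z / ℓ).re = -(2 * π * z.im / ℓ) := by
    have h1 : 2 * π * I * z / ℓ = ((2 * π / ℓ : ℝ) : ℂ) * (I * z) := by
      push_cast
      ring
    rw [h1, re_ofReal_mul]
    simp
    ring
  rw [this]
  have hℓ0 : (0 : ℝ) < ℓ := Nat.cast_pos.mpr (Nat.pos_of_ne_zero hℓ)
  have : 0 < 2 * π * z.im / ℓ := by positivity
  exact Real.exp_lt_one_iff.mpr (by linarith)

theorem dse_norm_exp_int_div {ℓ : ℕ} (b : ℤ) : ‖cexp (2 * π * I * b / ℓ)‖ = 1 := by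
  have h1 : 2 * π * I * b / ℓ = ((2 * π * b / ℓ : ℝ) : ℂ) * I := by
    push_cast
    ring
  rw [h1, Complex.norm_exp_ofReal_mul_I]

theorem dse_exp_int_div_ne_one {ℓ : ℕ} (hℓ : ℓ ≠ 0) {b : ℤ} (hb : ¬ (ℓ : ℤ) ∣ b) :
    cexp (2 * π * I * b / ℓ) ≠ 1 := by
  intro h
  rw [Complex.exp_eq_one_iff] at h
  obtain ⟨n, hn⟩ := h
  apply hb
  have hℓ' : (ℓ : ℂ) ≠ 0 := Nat.cast_ne_zero.mpr hℓ
  have h2 : (2 * π * I : ℂ) ≠ 0 := by
    simp [Real.pi_ne_zero, I_ne_zero]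
  have h3 : (b : ℂ) = ℓ * n := by
    have : 2 * π * I * ((b : ℂ) / ℓ) = 2 * π * I * n := by
      linear_combination hn
    have := mul_left_cancel₀ h2 this
    rw [div_eq_iff hℓ'] at this
    rw [this]; ring
  refine ⟨n, ?_⟩
  exact_mod_cast h3

/-- `F_{(a,b)}`, `0 ≤ a < ℓ`, is holomorphic -/
theorem dseF_mdifferentiable {ℓ : ℕ} (hℓ : ℓ ≠ 0) {a : ℕ} (ha : a < ℓ) {b : ℤ}
    (hab : a = 0 → ¬ (ℓ : ℤ) ∣ b) : MDiff (dseF ℓ (a : ℤ) b) := by
  rw [UpperHalfPlane.mdifferentiable_iff]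
  have hΦ := dsePhi_differentiableOn ha (dse_norm_exp_int_div (ℓ := ℓ) b)
    (fun h0 => dse_exp_int_div_ne_one hℓ (hab h0))
  have hcomp : DifferentiableOn ℂ
      (fun z : ℂ => dsePhi ℓ a (cexp (2 * π * I * b / ℓ)) (cexp (2 * π * I * z / ℓ)))
      {z | 0 < z.im} := by
    refine hΦ.comp ?_ ?_
    · intro z _
      apply DifferentiableAt.differentiableWithinAt
      exact (((differentiableAt_const _).mul differentiableAt_id).div_const _).cexp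
    · intro z hz
      rw [Metric.mem_ball, dist_zero_right]
      exact dse_norm_exp_div_lt_one hℓ z hz
  refine hcomp.congr ?_
  intro z hz
  rw [Function.comp_apply, UpperHalfPlane.ofComplex_apply_of_im_pos hz,
    dseF_eq_dsePhi hℓ ha b]

/-- `F_{(a,b)}`, `0 ≤ a < ℓ`, is bounded at `i∞` -/
theorem dseF_isBoundedAtImInfty {ℓ : ℕ} (hℓ : ℓ ≠ 0) {a : ℕ} (ha : a < ℓ) {b : ℤ}
    (hab : a = 0 → ¬ (ℓ : ℤ) ∣ b) : IsBoundedAtImInfty (dseF ℓ (a : ℤ) b) := by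
  have hΦ := dsePhi_differentiableOn ha (dse_norm_exp_int_div (ℓ := ℓ) b)
    (fun h0 => dse_exp_int_div_ne_one hℓ (hab h0))
  have hcont : ContinuousAt (dsePhi ℓ a (cexp (2 * π * I * b / ℓ))) 0 :=
    ((hΦ 0 (Metric.mem_ball_self one_pos)).differentiableAt
      (Metric.isOpen_ball.mem_nhds (Metric.mem_ball_self one_pos))).continuousAt
  have hℓ0 : (0 : ℝ) < ℓ := Nat.cast_pos.mpr (Nat.pos_of_ne_zero hℓ)
  have hq : Tendsto (fun τ : ℍ => cexp (2 * π * I * τ / ℓ)) atImInfty (𝓝 0) := by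
    have := UpperHalfPlane.qParam_tendsto_atImInfty hℓ0
    refine this.congr fun τ => ?_
    simp [Function.Periodic.qParam]
  have htend : Tendsto (dseF ℓ (a : ℤ) b) atImInfty
      (𝓝 (dsePhi ℓ a (cexp (2 * π * I * b / ℓ)) 0)) := by
    have := hcont.tendsto.comp hq
    refine this.congr fun τ => ?_
    rw [Function.comp_apply, dseF_eq_dsePhi hℓ ha b]
  exact htend.isBigO_one ℝ

end Fermat.Agent.DS
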