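/-
DS-E, file 8: the weight-one Eisenstein series `E_c = Σ_{b ≠ 0 mod N} c(b) F_{(0,b)}` as a modular
form on `Γ₁(N)`, and its transformation under `Γ₀(N)`.
-/
import Mathlib
import Fermat.Agent.Lib.DS.Eis1.Holo

set_option autoImplicit false

noncomputable section

namespace Fermat.Agent.DS

open UpperHalfPlane hiding I
open Complex Filter Topology Matrix EisensteinSeries Finset ModularForm CongruenceSubgroup OnePoint
open scoped Real MatrixGroups Manifold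

/-! ### `F_{(a,b)}` for arbitrary `(a,b) ≢ 0` -/

theorem dse_reduce {ℓ : ℕ} (hℓ : ℓ ≠ 0) {a b : ℤ} (hab : ¬ ((ℓ : ℤ) ∣ a ∧ (ℓ : ℤ) ∣ b)) :
    ∃ a₀ : ℕ, a₀ < ℓ ∧ (a₀ = 0 → ¬ (ℓ : ℤ) ∣ b) ∧ dseF ℓ a b = dseF ℓ (a₀ : ℤ) b := by
  have hℓ' : (ℓ : ℤ) ≠ 0 := Int.natCast_ne_zero.mpr hℓ
  have hnn : 0 ≤ a % (ℓ : ℤ) := Int.emod_nonneg a hℓ'
  have hlt : a % (ℓ : ℤ) < ℓ := Int.emod_lt_of_pos a (by positivity)
  refine ⟨(a % (ℓ : ℤ)).toNat, ?_, ?_, ?_⟩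
  · have := Int.toNat_of_nonneg hnn
    omega
  · intro h0 hb
    apply hab
    refine ⟨?_, hb⟩
    have h1 : a % (ℓ : ℤ) = 0 := by
      have := Int.toNat_of_nonneg hnn
      omega
    exact Int.dvd_of_emod_eq_zero h1
  · have hcast : (((a % (ℓ : ℤ)).toNat : ℕ) : ℤ) = a % (ℓ : ℤ) := Int.toNat_of_nonneg hnn
    rw [hcast]
    have hab' : ¬ ((ℓ : ℤ) ∣ a % (ℓ : ℤ) ∧ (ℓ : ℤ) ∣ b) := by
      rintro ⟨h1, h2⟩
      exact hab ⟨(Int.dvd_iff_emod_eq_zero).mpr (by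
        have := Int.emod_emod_of_dvd a (dvd_refl (ℓ : ℤ))
        rw [← this]; exact Int.emod_eq_zero_of_dvd h1), h2⟩
    refine dseF_congr hℓ hab' ?_ ?_
    · exact ⟨a / (ℓ : ℤ), by have := Int.emod_add_mul_ediv a (ℓ : ℤ); linarith⟩
    · simp

theorem dseF_mdifferentiable' {ℓ : ℕ} (hℓ : ℓ ≠ 0) {a b : ℤ}
    (hab : ¬ ((ℓ : ℤ) ∣ a ∧ (ℓ : ℤ) ∣ b)) : MDiff (dseF ℓ a b) := by
  obtain ⟨a₀, h1, h2, h3⟩ := dse_reduce hℓ hab
  rw [h3]
  exact dseF_mdifferentiable hℓ h1 h2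

theorem dseF_isBoundedAtImInfty' {ℓ : ℕ} (hℓ : ℓ ≠ 0) {a b : ℤ}
    (hab : ¬ ((ℓ : ℤ) ∣ a ∧ (ℓ : ℤ) ∣ b)) : IsBoundedAtImInfty (dseF ℓ a b) := by
  obtain ⟨a₀, h1, h2, h3⟩ := dse_reduce hℓ hab
  rw [h3]
  exact dseF_isBoundedAtImInfty hℓ h1 h2

theorem dse_not_dvd_slash {ℓ : ℕ} {a b : ℤ} (hab : ¬ ((ℓ : ℤ) ∣ a ∧ (ℓ : ℤ) ∣ b)) (γ : SL(2, ℤ)) :
    ¬ ((ℓ : ℤ) ∣ a * γ 0 0 + b * γ 1 0 ∧ (ℓ : ℤ) ∣ a * γ 0 1 + b * γ 1 1) := by
  rintro ⟨h1, h2⟩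
  apply hab
  have hdet : γ 0 0 * γ 1 1 - γ 0 1 * γ 1 0 = 1 := by
    have := γ.det_coe
    rw [Matrix.det_fin_two] at this
    exact this
  constructor
  · have : a = (a * γ 0 0 + b * γ 1 0) * γ 1 1 - (a * γ 0 1 + b * γ 1 1) * γ 1 0 := by
      linear_combination (-a) * hdet
    rw [this]
    exact dvd_sub (Dvd.dvd.mul_right h1 _) (Dvd.dvd.mul_right h2 _)
  · have : b = (a * γ 0 1 + b * γ 1 1) * γ 0 0 - (a * γ 0 0 + b * γ 1 0) * γ 0 1 := by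
      linear_combination (-b) * hdet
    rw [this]
    exact dvd_sub (Dvd.dvd.mul_right h2 _) (Dvd.dvd.mul_right h1 _)

theorem dseF_slash_isBounded {ℓ : ℕ} (hℓ : ℓ ≠ 0) {a b : ℤ}
    (hab : ¬ ((ℓ : ℤ) ∣ a ∧ (ℓ : ℤ) ∣ b)) (γ : SL(2, ℤ)) :
    IsBoundedAtImInfty ((dseF ℓ a b) ∣[(1 : ℤ)] γ) := by
  rw [dseF_slash hℓ hab]
  exact dseF_isBoundedAtImInfty' hℓ (dse_not_dvd_slash hab γ)

/-! ### A constructor for modular forms -/

/-- the modular form of level `Γ` with underlying function `h` -/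
def dseMkForm (Γ : Subgroup SL(2, ℤ)) [Γ.FiniteIndex] (k : ℤ) (h : ℍ → ℂ) (hh : MDiff h)
    (hb : ∀ γ : SL(2, ℤ), IsBoundedAtImInfty (h ∣[k] γ)) (hinv : ∀ γ ∈ Γ, h ∣[k] γ = h) :
    ModularForm Γ k where
  toFun := h
  slash_action_eq' := by
    rintro _ ⟨γ, hγ, rfl⟩
    exact hinv γ hγ
  holo' := hh
  bdd_at_cusps' := fun {c} hc => by
    have hc' := (Subgroup.IsArithmetic.isCusp_iff_isCusp_SL2Z _).mp hc
    rw [isBoundedAt_iff_forall_SL2Z hc']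
    intro γ _
    exact hb γ

@[simp] theorem coe_dseMkForm (Γ : Subgroup SL(2, ℤ)) [Γ.FiniteIndex] (k : ℤ) (h : ℍ → ℂ)
    (hh : MDiff h) (hb : ∀ γ : SL(2, ℤ), IsBoundedAtImInfty (h ∣[k] γ))
    (hinv : ∀ γ ∈ Γ, h ∣[k] γ = h) : ⇑(dseMkForm Γ k h hh hb hinv) = h := rfl

/-! ### The Eisenstein series -/

variable (N : ℕ) [NeZero N]

theorem dse_val_not_dvd {b : ZMod N} (hb : b ≠ 0) (a : ℤ) :
    ¬ ((N : ℤ) ∣ a ∧ (N : ℤ) ∣ (b.val : ℤ)) := by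
  rintro ⟨-, h⟩
  apply hb
  have := (ZMod.intCast_zmod_eq_zero_iff_dvd (b.val : ℤ) N).mpr h
  simpa using this

/-- the function `F_{(0,b)}`, `b ∈ ℤ/N` -/
def dseFb (b : ZMod N) : ℍ → ℂ := dseF N 0 (b.val : ℤ)

/-- `E_c = Σ_{b ≠ 0} c(b) F_{(0,b)}` -/
def dseE (c : ZMod N → ℂ) : ℍ → ℂ :=
  ∑ b ∈ univ.filter (fun b : ZMod N => b ≠ 0), c b • dseFb N b

theorem dseE_mdifferentiable (c : ZMod N → ℂ) : MDiff (dseE N c) := by
  unfold dseE
  have : ∀ s : Finset (ZMod N), (∀ b ∈ s, b ≠ 0) → MDiff (∑ b ∈ s, c b • dseFb N b) := by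
    intro s
    induction s using Finset.induction_on with
    | empty =>
      intro _
      rw [Finset.sum_empty]
      exact (mdifferentiable_const (c := (0 : ℂ)) : MDiff (fun _ : ℍ => (0 : ℂ)))
    | insert a s ha ih =>
      intro h
      rw [Finset.sum_insert ha]
      have h1 : MDiff (dseFb N a) :=
        dseF_mdifferentiable' (NeZero.ne N) (dse_val_not_dvd N (h a (mem_insert_self a s)) 0)
      exact (h1.const_smul (c a)).add (ih fun b hb => h b (mem_insert_of_mem hb))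
  exact this _ (fun b hb => (mem_filter.mp hb).2)

theorem dseE_slash (c : ZMod N → ℂ) (γ : SL(2, ℤ)) :
    (dseE N c) ∣[(1 : ℤ)] γ = ∑ b ∈ univ.filter (fun b : ZMod N => b ≠ 0),
      c b • dseF N ((b.val : ℤ) * γ 1 0) ((b.val : ℤ) * γ 1 1) := by
  unfold dseE
  rw [SlashAction.sum_slash]
  refine sum_congr rfl fun b hb => ?_
  rw [SL_smul_slash, dseFb, dseF_slash (NeZero.ne N) (dse_val_not_dvd N (mem_filter.mp hb).2 0)]
  simp

theorem dseE_slash_isBounded (c : ZMod N → ℂ) (γ : SL(2, ℤ)) :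
    IsBoundedAtImInfty ((dseE N c) ∣[(1 : ℤ)] γ) := by
  rw [dseE_slash]
  have : ∀ s : Finset (ZMod N), (∀ b ∈ s, b ≠ 0) → IsBoundedAtImInfty
      (∑ b ∈ s, c b • dseF N ((b.val : ℤ) * γ 1 0) ((b.val : ℤ) * γ 1 1)) := by
    intro s
    induction s using Finset.induction_on with
    | empty =>
      intro _
      simpa using (zero_form_isBoundedAtImInfty : IsBoundedAtImInfty (0 : ℍ → ℂ))
    | insert a s ha ih =>
      intro h
      rw [Finset.sum_insert ha]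
      have h0 := dse_not_dvd_slash (dse_val_not_dvd N (h a (mem_insert_self a s)) 0) γ
      simp only [zero_mul, zero_add] at h0
      have h1 := dseF_isBoundedAtImInfty' (NeZero.ne N) h0
      exact (h1.const_smul_left (c a)).add (ih fun b hb => h b (mem_insert_of_mem hb))
  exact this _ (fun b hb => (mem_filter.mp hb).2)

/-- the slash of `F_{(0,b)}` by an element of `Γ₀(N)` -/
theorem dseF_slash_Gamma0 {γ : SL(2, ℤ)} (hγ : γ ∈ Gamma0 N) {b : ZMod N} (hb : b ≠ 0) :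
    dseF N ((b.val : ℤ) * γ 1 0) ((b.val : ℤ) * γ 1 1) = dseFb N (b * ((γ 1 1 : ℤ) : ZMod N)) := by
  rw [dseFb]
  have hne : b * ((γ 1 1 : ℤ) : ZMod N) ≠ 0 := by
    intro h0
    apply hb
    have hdet : ((γ 0 0 : ℤ) : ZMod N) * ((γ 1 1 : ℤ) : ZMod N) = 1 := by
      have := γ.det_coe
      rw [Matrix.det_fin_two] at this
      have h2 := congrArg (fun x : ℤ => (x : ZMod N)) this
      simp only [Int.cast_sub, Int.cast_mul, Int.cast_one] at h2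
      rw [Gamma0_mem.mp hγ, mul_zero, sub_zero] at h2
      exact h2
    calc b = b * (((γ 1 1 : ℤ) : ZMod N) * ((γ 0 0 : ℤ) : ZMod N)) := by
          rw [mul_comm ((γ 1 1 : ℤ) : ZMod N), hdet, mul_one]
      _ = 0 := by rw [← mul_assoc, h0, zero_mul]
  refine dseF_congr (NeZero.ne N) (dse_val_not_dvd N hne 0) ?_ ?_
  · rw [sub_zero]
    apply Dvd.dvd.mul_left
    exact (ZMod.intCast_zmod_eq_zero_iff_dvd _ N).mp (Gamma0_mem.mp hγ)
  · rw [← ZMod.intCast_eq_intCast_iff_dvd_sub]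
    push_cast
    simp

/-- **`Γ₀(N)`-equivariance**: if `c(b d⁻¹) = χ(d) c(b)` then `E_c ∣ γ = χ(d_γ) E_c` -/
theorem dseE_slash_Gamma0 (c : ZMod N → ℂ) {γ : SL(2, ℤ)} (hγ : γ ∈ Gamma0 N) (x : ℂ)
    (hc : ∀ b : ZMod N, c b = x * c (b * ((γ 1 1 : ℤ) : ZMod N))) :
    (dseE N c) ∣[(1 : ℤ)] γ = x • dseE N c := by
  rw [dseE_slash, dseE, smul_sum]
  have hdet : ((γ 0 0 : ℤ) : ZMod N) * ((γ 1 1 : ℤ) : ZMod N) = 1 := by
    have := γ.det_coe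
    rw [Matrix.det_fin_two] at this
    have h2 := congrArg (fun x : ℤ => (x : ZMod N)) this
    simp only [Int.cast_sub, Int.cast_mul, Int.cast_one] at h2
    rw [Gamma0_mem.mp hγ, mul_zero, sub_zero] at h2
    exact h2
  set d : ZMod N := ((γ 1 1 : ℤ) : ZMod N) with hd
  set a : ZMod N := ((γ 0 0 : ℤ) : ZMod N) with ha
  refine sum_bij' (fun b _ => b * d) (fun b _ => b * a) ?_ ?_ ?_ ?_ ?_
  · intro b hb
    rw [mem_filter] at hb ⊢
    refine ⟨mem_univ _, fun h0 => hb.2 ?_⟩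
    calc b = b * (d * a) := by rw [mul_comm d, hdet, mul_one]
      _ = 0 := by rw [← mul_assoc, h0, zero_mul]
  · intro b hb
    rw [mem_filter] at hb ⊢
    refine ⟨mem_univ _, fun h0 => hb.2 ?_⟩
    calc b = b * (a * d) := by rw [hdet, mul_one]
      _ = 0 := by rw [← mul_assoc, h0, zero_mul]
  · intro b _
    rw [mul_assoc, mul_comm d, hdet, mul_one]
  · intro b _
    rw [mul_assoc, hdet, mul_one]
  · intro b hb
    rw [dseF_slash_Gamma0 N hγ (mem_filter.mp hb).2, hc b, smul_smul]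

/-- **the Eisenstein series as a modular form on `Γ₁(N)`** -/
def dseEForm (c : ZMod N → ℂ) : ModularForm (Gamma1 N) 1 :=
  dseMkForm (Gamma1 N) 1 (dseE N c) (dseE_mdifferentiable N c) (dseE_slash_isBounded N c) (by
    intro γ hγ
    have h1 := (Gamma1_mem N γ).mp hγ
    have h0 : γ ∈ Gamma0 N := Gamma0_mem.mpr h1.2.2
    have := dseE_slash_Gamma0 N c h0 1 (fun b => by rw [h1.2.1, mul_one, one_mul])
    rw [this, one_smul])

@[simp] theorem coe_dseEForm (c : ZMod N → ℂ) : ⇑(dseEForm N c) = dseE N c := rfl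

end Fermat.Agent.DS
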