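/-
DS-E, file 9: finite Fourier analysis on `ℤ/N` for the coefficients `c = 𝓕⁻¹ψ` of the weight-one
Eisenstein series of an odd Dirichlet character `ψ`.
-/
import Mathlib

set_option autoImplicit false

noncomputable section

namespace Fermat.Agent.DS

open Complex Finset
open scoped Real ZMod

variable (N : ℕ) [NeZero N]

/-- the coefficient function `c = 𝓕⁻¹ ψ`: `c(b) = N⁻¹ Σ_j e(jb/N) ψ(j)` -/
def dseCoef (ψ : DirichletCharacter ℂ N) (b : ZMod N) : ℂ :=
  (N : ℂ)⁻¹ * ∑ j : ZMod N, ZMod.stdAddChar (j * b) * ψ j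

theorem dseCoef_eq_invDFT (ψ : DirichletCharacter ℂ N) :
    dseCoef N ψ = (ZMod.dft (N := N) (E := ℂ)).symm (⇑ψ) := by
  funext b
  rw [ZMod.invDFT_apply]
  simp [dseCoef, smul_eq_mul]

/-- Fourier inversion: `Σ_b c(b) e(-bk/N) = ψ(k)` -/
theorem dse_sum_coef (ψ : DirichletCharacter ℂ N) (k : ZMod N) :
    ∑ b : ZMod N, dseCoef N ψ b * ZMod.stdAddChar (-(b * k)) = ψ k := by
  have h := congrFun (LinearEquiv.apply_symm_apply (ZMod.dft (N := N) (E := ℂ)) (⇑ψ)) k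
  rw [← dseCoef_eq_invDFT, ZMod.dft_apply] at h
  rw [← h]
  refine sum_congr rfl fun b _ => ?_
  rw [smul_eq_mul, mul_comm]

theorem dse_sum_coef' (ψ : DirichletCharacter ℂ N) (k : ZMod N) :
    ∑ b : ZMod N, dseCoef N ψ b * ZMod.stdAddChar (b * k) = ψ (-k) := by
  rw [← dse_sum_coef N ψ (-k)]
  refine sum_congr rfl fun b _ => ?_
  rw [mul_neg, neg_neg]

/-- the transformation of `c` under multiplication by a unit -/
theorem dseCoef_mul_unit (ψ : DirichletCharacter ℂ N) {a d : ZMod N} (had : a * d = 1)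
    (b : ZMod N) : dseCoef N ψ b = ψ d * dseCoef N ψ (b * d) := by
  have h0 : ∑ j : ZMod N, ZMod.stdAddChar (j * (b * d)) * ψ j
      = ∑ j : ZMod N, ψ a * (ZMod.stdAddChar (j * b) * ψ j) := by
    refine Finset.sum_bij' (fun (j : ZMod N) _ => j * d) (fun (j : ZMod N) _ => j * a)
      (fun _ _ => mem_univ _) (fun _ _ => mem_univ _) ?_ ?_ ?_
    · intro j _
      rw [mul_assoc, mul_comm d, had, mul_one]
    · intro j _
      rw [mul_assoc, had, mul_one]
    · intro j _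
      have e1 : j * d * b = j * (b * d) := by ring
      have e2 : ψ j = ψ a * ψ (j * d) := by
        rw [← map_mul]
        congr 1
        calc j = j * (a * d) := by rw [had, mul_one]
          _ = a * (j * d) := by ring
      rw [e1, e2]
      ring
  have h1 : dseCoef N ψ (b * d) = ψ a * dseCoef N ψ b := by
    unfold dseCoef
    rw [h0, ← mul_sum]
    ring
  rw [h1, ← mul_assoc, ← map_mul, mul_comm d, had, map_one, one_mul]

variable {N}

omit [NeZero N] in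
theorem dse_char_zero {ψ : DirichletCharacter ℂ N} (hψ : ψ (-1) = -1) : ψ 0 = 0 := by
  have h : ψ 0 = ψ (-1) * ψ 0 := by rw [← map_mul, mul_zero]
  rw [hψ] at h
  have h2 : (2 : ℂ) * ψ 0 = 0 := by linear_combination h
  rcases mul_eq_zero.mp h2 with h3 | h3
  · norm_num at h3
  · exact h3

omit [NeZero N] in
theorem dse_char_neg {ψ : DirichletCharacter ℂ N} (hψ : ψ (-1) = -1) (k : ZMod N) :
    ψ (-k) = -ψ k := by
  rw [← neg_one_mul, map_mul, hψ, neg_one_mul]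

theorem dseCoef_neg {ψ : DirichletCharacter ℂ N} (hψ : ψ (-1) = -1) (b : ZMod N) :
    dseCoef N ψ (-b) = -dseCoef N ψ b := by
  have h := dseCoef_mul_unit N ψ (a := -1) (d := -1) (by ring) b
  rw [hψ, mul_neg_one] at h
  rw [h]
  ring

theorem dseCoef_zero {ψ : DirichletCharacter ℂ N} (hψ : ψ (-1) = -1) : dseCoef N ψ 0 = 0 := by
  have h := dseCoef_neg hψ 0
  rw [neg_zero] at h
  have h2 : (2 : ℂ) * dseCoef N ψ 0 = 0 := by linear_combination h
  rcases mul_eq_zero.mp h2 with h3 | h3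
  · norm_num at h3
  · exact h3

theorem dse_filter_ne_zero (N : ℕ) [NeZero N] :
    (univ.filter fun b : ZMod N => b ≠ 0) = univ.erase 0 := by
  ext b
  simp

/-- sums over `b ≠ 0` against `c` are sums over all `b` -/
theorem dse_sum_filter {ψ : DirichletCharacter ℂ N} (hψ : ψ (-1) = -1) (g : ZMod N → ℂ) :
    ∑ b ∈ univ.filter (fun b : ZMod N => b ≠ 0), dseCoef N ψ b * g b
      = ∑ b : ZMod N, dseCoef N ψ b * g b := by
  rw [dse_filter_ne_zero]
  exact sum_erase _ (by rw [dseCoef_zero hψ, zero_mul])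

/-- `Σ_{b≠0} c(b) (e(-bk/N) - e(bk/N)) = 2 ψ(k)` -/
theorem dse_sum_coef_pow {ψ : DirichletCharacter ℂ N} (hψ : ψ (-1) = -1) (k : ℕ) :
    ∑ b ∈ univ.filter (fun b : ZMod N => b ≠ 0),
      dseCoef N ψ b * ((ZMod.stdAddChar b)⁻¹ ^ k - (ZMod.stdAddChar b) ^ k) = 2 * ψ (k : ZMod N) := by
  rw [dse_sum_filter hψ]
  have h1 : ∀ b : ZMod N, (ZMod.stdAddChar b : ℂ)⁻¹ ^ k = ZMod.stdAddChar (-(b * (k : ZMod N))) := by
    intro b
    rw [← AddChar.map_neg_eq_inv, ← AddChar.map_nsmul_eq_pow, nsmul_eq_mul, mul_neg, mul_comm]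
  have h2 : ∀ b : ZMod N, (ZMod.stdAddChar b : ℂ) ^ k = ZMod.stdAddChar (b * (k : ZMod N)) := by
    intro b
    rw [← AddChar.map_nsmul_eq_pow, nsmul_eq_mul, mul_comm]
  simp only [h1, h2, mul_sub, sum_sub_distrib]
  rw [dse_sum_coef, dse_sum_coef', dse_char_neg hψ]
  ring

/-- `Σ_{r<n} r xʳ` in closed form -/
theorem dse_sum_mul_pow (x : ℂ) (n : ℕ) :
    (x - 1) * ∑ r ∈ range n, (r : ℂ) * x ^ r = n * x ^ n - x * ∑ r ∈ range n, x ^ r := by
  induction n with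
  | zero => simp
  | succ n ih =>
    rw [sum_range_succ, sum_range_succ, mul_add, ih]
    push_cast
    ring

theorem dse_root_sum {x : ℂ} (hx : x ^ N = 1) (hx1 : x ≠ 1) :
    (x + 1) / (x - 1) = 1 + 2 / (N : ℂ) * ∑ r ∈ range N, (r : ℂ) * x ^ r := by
  have hN : (N : ℂ) ≠ 0 := Nat.cast_ne_zero.mpr (NeZero.ne N)
  have h1 : x - 1 ≠ 0 := sub_ne_zero.mpr hx1
  have hg : ∑ r ∈ range N, x ^ r = 0 := by
    have := geom_sum_mul x N
    rw [hx, sub_self] at this
    rcases mul_eq_zero.mp this with h | h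
    · exact h
    · exact absurd h h1
  have h2 := dse_sum_mul_pow x N
  rw [hx, hg, mul_zero, sub_zero, mul_one] at h2
  rw [div_eq_iff h1]
  have : (1 + 2 / (N : ℂ) * ∑ r ∈ range N, (r : ℂ) * x ^ r) * (x - 1)
      = (x - 1) + 2 / (N : ℂ) * ((x - 1) * ∑ r ∈ range N, (r : ℂ) * x ^ r) := by ring
  rw [this, h2]
  field_simp
  ring

theorem dse_stdAddChar_pow_self (b : ZMod N) : (ZMod.stdAddChar b : ℂ) ^ N = 1 := by
  rw [← AddChar.map_nsmul_eq_pow, nsmul_eq_mul, ZMod.natCast_self, zero_mul,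
    AddChar.map_zero_eq_one]

theorem dse_stdAddChar_ne_one {b : ZMod N} (hb : b ≠ 0) : (ZMod.stdAddChar b : ℂ) ≠ 1 := by
  intro h
  apply hb
  apply ZMod.injective_stdAddChar
  rw [h, AddChar.map_zero_eq_one]

/-- the constant term: `Σ_{b≠0} c(b) (w_b+1)/(w_b-1) = -(2/N) Σ_{r<N} ψ(r) r` -/
theorem dse_sum_coef_const {ψ : DirichletCharacter ℂ N} (hψ : ψ (-1) = -1) :
    ∑ b ∈ univ.filter (fun b : ZMod N => b ≠ 0),
      dseCoef N ψ b * ((ZMod.stdAddChar b + 1) / (ZMod.stdAddChar b - 1))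
      = -(2 / (N : ℂ)) * ∑ r ∈ range N, ψ (r : ZMod N) * (r : ℂ) := by
  have h1 : ∀ b ∈ univ.filter (fun b : ZMod N => b ≠ 0),
      dseCoef N ψ b * ((ZMod.stdAddChar b + 1) / (ZMod.stdAddChar b - 1))
      = dseCoef N ψ b * (1 + 2 / (N : ℂ) * ∑ r ∈ range N, (r : ℂ) * (ZMod.stdAddChar b) ^ r) := by
    intro b hb
    rw [dse_root_sum (dse_stdAddChar_pow_self b) (dse_stdAddChar_ne_one (mem_filter.mp hb).2)]
  rw [sum_congr rfl h1, dse_sum_filter hψ]
  have h2 : ∀ b : ZMod N,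
      dseCoef N ψ b * (1 + 2 / (N : ℂ) * ∑ r ∈ range N, (r : ℂ) * (ZMod.stdAddChar b) ^ r)
      = dseCoef N ψ b * ZMod.stdAddChar (-(b * 0))
        + 2 / (N : ℂ) * ∑ r ∈ range N, (r : ℂ) *
          (dseCoef N ψ b * ZMod.stdAddChar (b * (r : ZMod N))) := by
    intro b
    rw [mul_zero, neg_zero, AddChar.map_zero_eq_one, mul_one, mul_add, mul_one, mul_left_comm,
      mul_sum]
    congr 2
    refine sum_congr rfl fun r _ => ?_
    rw [← AddChar.map_nsmul_eq_pow, nsmul_eq_mul, mul_comm (r : ZMod N)]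
    ring
  rw [sum_congr rfl fun b _ => h2 b, sum_add_distrib, dse_sum_coef, dse_char_zero hψ, zero_add,
    ← mul_sum, sum_comm]
  have h3 : ∀ r ∈ range N, ∑ b : ZMod N, (r : ℂ) *
      (dseCoef N ψ b * ZMod.stdAddChar (b * (r : ZMod N))) = -(ψ (r : ZMod N) * (r : ℂ)) := by
    intro r _
    rw [← mul_sum, dse_sum_coef', dse_char_neg hψ]
    ring
  rw [sum_congr rfl h3, sum_neg_distrib]
  ring

end Fermat.Agent.DS
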