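/-
DS-E, file 10: the double series `Σ_{m,k≥1} f(k) q^{mk}` and its rearrangement
`Σ_{n≥1} (Σ_{d∣n} f(d)) qⁿ`; the expansion of `dseL q w` as such a double series.
-/
import Mathlib
import Fermat.Agent.Lib.DS.Eis1.Series

set_option autoImplicit false

noncomputable section

namespace Fermat.Agent.DS

open Complex Filter Topology Finset
open scoped Real

theorem dseG_hasSum {x : ℂ} (hx : ‖x‖ < 1) : HasSum (fun k : ℕ => x ^ (k + 1)) (dseG x) := by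
  have h := (hasSum_geometric_of_norm_lt_one hx).mul_left x
  rw [dseG, div_eq_mul_inv]
  exact h.congr_fun fun k => pow_succ' x k

/-- the equivalence `ℕ+ × ℕ+ ≃ ℕ × ℕ` -/
def dsePNatProd : ℕ+ × ℕ+ ≃ ℕ × ℕ := Equiv.prodCongr Equiv.pnatEquivNat Equiv.pnatEquivNat

theorem dsePNatProd_fst (c : ℕ+ × ℕ+) : (dsePNatProd c).1 + 1 = c.1 := by
  simp [dsePNatProd, Equiv.pnatEquivNat]

theorem dsePNatProd_snd (c : ℕ+ × ℕ+) : (dsePNatProd c).2 + 1 = c.2 := by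
  simp [dsePNatProd, Equiv.pnatEquivNat]

theorem dse_summable_pow_mul {r : ℝ} (hr0 : 0 ≤ r) (hr : r < 1) :
    Summable fun p : ℕ × ℕ => r ^ ((p.1 + 1) * (p.2 + 1)) := by
  have h : ‖r‖ < 1 := by rwa [Real.norm_of_nonneg hr0]
  have h1 := summable_prod_mul_pow (𝕜 := ℝ) 0 h
  rw [← dsePNatProd.summable_iff]
  refine h1.congr fun c => ?_
  simp only [Function.comp_apply, dsePNatProd_fst, dsePNatProd_snd, pow_zero, one_mul]

/-- the expansion of `dseL q w` for `|w| = 1` as a double series -/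
theorem dseL_hasSum {q w : ℂ} (hq : ‖q‖ < 1) (hw : ‖w‖ = 1) :
    HasSum (fun p : ℕ × ℕ => q ^ ((p.1 + 1) * (p.2 + 1)) * (w⁻¹ ^ (p.2 + 1) - w ^ (p.2 + 1)))
      (dseL q w) := by
  have hw' : ‖w⁻¹‖ = 1 := by rw [norm_inv, hw, inv_one]
  have hsum : Summable fun p : ℕ × ℕ =>
      q ^ ((p.1 + 1) * (p.2 + 1)) * (w⁻¹ ^ (p.2 + 1) - w ^ (p.2 + 1)) := by
    refine Summable.of_norm_bounded ((dse_summable_pow_mul (norm_nonneg q) hq).mul_left 2) ?_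
    intro p
    rw [norm_mul, norm_pow, mul_comm]
    refine mul_le_mul_of_nonneg_right ?_ (pow_nonneg (norm_nonneg q) _)
    calc ‖w⁻¹ ^ (p.2 + 1) - w ^ (p.2 + 1)‖ ≤ ‖w⁻¹ ^ (p.2 + 1)‖ + ‖w ^ (p.2 + 1)‖ := norm_sub_le _ _
      _ = 2 := by rw [norm_pow, norm_pow, hw, hw', one_pow]; norm_num
  have hrow : ∀ m : ℕ, HasSum (fun k : ℕ =>
      q ^ ((m + 1) * (k + 1)) * (w⁻¹ ^ (k + 1) - w ^ (k + 1))) (dseTermL q w m) := by
    intro m
    have hqm : ‖q ^ (m + 1)‖ < 1 := by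
      rw [norm_pow]
      exact pow_lt_one₀ (norm_nonneg q) hq (Nat.succ_ne_zero m)
    have h1 : ‖q ^ (m + 1) * w⁻¹‖ < 1 := by rwa [norm_mul, hw', mul_one]
    have h2 : ‖q ^ (m + 1) * w‖ < 1 := by rwa [norm_mul, hw, mul_one]
    have := (dseG_hasSum h1).sub (dseG_hasSum h2)
    rw [dseTermL]
    refine this.congr_fun fun k => ?_
    rw [mul_pow, mul_pow, ← pow_mul]
    ring
  have h3 := hsum.hasSum.prod_fiberwise hrow
  have h4 : dseL q w = ∑' p : ℕ × ℕ,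
      q ^ ((p.1 + 1) * (p.2 + 1)) * (w⁻¹ ^ (p.2 + 1) - w ^ (p.2 + 1)) := h3.tsum_eq
  rw [h4]
  exact hsum.hasSum

/-- **Lambert rearrangement**: `Σ_{m,k≥1} f(k) q^{mk} = Σ_{n≥1} (Σ_{d∣n} f(d)) qⁿ` -/
theorem dse_hasSum_lambert {q : ℂ} (f : ℕ → ℂ) {S : ℂ}
    (hS : HasSum (fun p : ℕ × ℕ => f (p.2 + 1) * q ^ ((p.1 + 1) * (p.2 + 1))) S) :
    HasSum (fun n : ℕ => (∑ d ∈ (n + 1).divisors, f d) * q ^ (n + 1)) S := by
  -- pass to `ℕ+ × ℕ+`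
  have h1 : HasSum (fun c : ℕ+ × ℕ+ => f (c.2 : ℕ) * q ^ ((c.1 : ℕ) * (c.2 : ℕ))) S := by
    rw [← dsePNatProd.hasSum_iff] at hS
    refine hS.congr_fun fun c => ?_
    simp only [Function.comp_apply, dsePNatProd_fst, dsePNatProd_snd]
  -- pass to the sigma type
  rw [← sigmaAntidiagonalEquivProd.hasSum_iff] at h1
  have h2 : ∀ n : ℕ+, HasSum (fun c : Nat.divisorsAntidiagonal (n : ℕ) =>
      ((fun c : ℕ+ × ℕ+ => f (c.2 : ℕ) * q ^ ((c.1 : ℕ) * (c.2 : ℕ))) ∘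
        sigmaAntidiagonalEquivProd) ⟨n, c⟩)
      ((∑ d ∈ (n : ℕ).divisors, f d) * q ^ (n : ℕ)) := by
    intro n
    have h := hasSum_fintype (fun c : Nat.divisorsAntidiagonal (n : ℕ) =>
      ((fun c : ℕ+ × ℕ+ => f (c.2 : ℕ) * q ^ ((c.1 : ℕ) * (c.2 : ℕ))) ∘
        sigmaAntidiagonalEquivProd) ⟨n, c⟩)
    convert h using 1
    have e1 : ∀ c : Nat.divisorsAntidiagonal (n : ℕ),
        ((fun c : ℕ+ × ℕ+ => f (c.2 : ℕ) * q ^ ((c.1 : ℕ) * (c.2 : ℕ))) ∘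
          sigmaAntidiagonalEquivProd) ⟨n, c⟩ = f c.1.2 * q ^ (c.1.1 * c.1.2) := by
      intro c
      rfl
    simp only [e1]
    rw [Finset.univ_eq_attach,
      (n : ℕ).divisorsAntidiagonal.sum_attach (fun x : ℕ × ℕ => f x.2 * q ^ (x.1 * x.2)),
      Nat.sum_divisorsAntidiagonal' (fun x y => f y * q ^ (x * y)), Finset.sum_mul]
    refine Finset.sum_congr rfl fun d hd => ?_
    rw [Nat.div_mul_cancel (Nat.dvd_of_mem_divisors hd)]
  have h3 := h1.sigma h2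
  rw [← Equiv.pnatEquivNat.symm.hasSum_iff] at h3
  refine h3.congr_fun fun n => ?_
  simp [Equiv.pnatEquivNat]

end Fermat.Agent.DS
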