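/-
DS-E, file 11: the `q`-expansion of the weight-one Eisenstein series `E_c`, `c = 𝓕⁻¹ψ`, of an odd
Dirichlet character `ψ` modulo `N`:
`-(N/2πi) E_c = Σ_{j<N} ψ(j) j - 2N Σ_{n≥1} (Σ_{d∣n} ψ(d)) qⁿ`.
-/
import Mathlib
import Fermat.Agent.Lib.DS.Eis1.Form
import Fermat.Agent.Lib.DS.Eis1.Fourier
import Fermat.Agent.Lib.DS.Eis1.Lambert

set_option autoImplicit false

noncomputable section

namespace Fermat.Agent.DS

open UpperHalfPlane hiding I
open Complex Filter Topology Matrix Finset ModularForm CongruenceSubgroup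
open scoped Real MatrixGroups Manifold

variable {N : ℕ} [NeZero N]

theorem dse_stdAddChar_eq (b : ZMod N) :
    (ZMod.stdAddChar b : ℂ) = cexp (2 * π * I * (((b.val : ℤ) : ℂ) / N)) := by
  have h := ZMod.stdAddChar_coe (N := N) (b.val : ℤ)
  rw [Int.cast_natCast, ZMod.natCast_zmod_val] at h
  rw [h]
  congr 1
  push_cast
  ring

theorem dseFb_eq (b : ZMod N) (τ : ℍ) :
    dseFb N b τ = dseZ (cexp (2 * π * I * τ)) (ZMod.stdAddChar b) := by
  rw [dseFb, dseF, dsePt, dse_stdAddChar_eq]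
  simp

theorem dse_norm_stdAddChar (b : ZMod N) : ‖(ZMod.stdAddChar b : ℂ)‖ = 1 := by
  rw [ZMod.stdAddChar_apply]
  exact Circle.norm_coe _

/-- the value of `E_c` in terms of `dseL` -/
theorem dseE_apply_eq {ψ : DirichletCharacter ℂ N} (hψ : ψ (-1) = -1) (τ : ℍ) :
    dseE N (dseCoef N ψ) τ = -(2 * π * I / N) * ∑ r ∈ range N, ψ (r : ZMod N) * (r : ℂ)
      + 2 * π * I * ∑ b ∈ univ.filter (fun b : ZMod N => b ≠ 0),
          dseCoef N ψ b * dseL (cexp (2 * π * I * τ)) (ZMod.stdAddChar b) := by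
  have h1 : dseE N (dseCoef N ψ) τ = ∑ b ∈ univ.filter (fun b : ZMod N => b ≠ 0),
      (π * I * (dseCoef N ψ b * ((ZMod.stdAddChar b + 1) / (ZMod.stdAddChar b - 1)))
        + 2 * π * I * (dseCoef N ψ b * dseL (cexp (2 * π * I * τ)) (ZMod.stdAddChar b))) := by
    rw [dseE, Finset.sum_apply]
    refine sum_congr rfl fun b _ => ?_
    rw [Pi.smul_apply, dseFb_eq, dseZ, smul_eq_mul]
    ring
  rw [h1, sum_add_distrib, ← mul_sum, ← mul_sum, dse_sum_coef_const hψ]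
  ring

/-- the double series for `Σ_{b≠0} c(b) dseL q w_b` -/
theorem dse_hasSum_coef_L {ψ : DirichletCharacter ℂ N} (hψ : ψ (-1) = -1) {q : ℂ} (hq : ‖q‖ < 1) :
    HasSum (fun n : ℕ => (∑ d ∈ (n + 1).divisors, 2 * ψ (d : ZMod N)) * q ^ (n + 1))
      (∑ b ∈ univ.filter (fun b : ZMod N => b ≠ 0),
          dseCoef N ψ b * dseL q (ZMod.stdAddChar b)) := by
  refine dse_hasSum_lambert (fun d => 2 * ψ (d : ZMod N)) ?_
  have h1 := hasSum_sum (s := univ.filter (fun b : ZMod N => b ≠ 0))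
    (f := fun (b : ZMod N) (p : ℕ × ℕ) => dseCoef N ψ b * (q ^ ((p.1 + 1) * (p.2 + 1)) *
      ((ZMod.stdAddChar b : ℂ)⁻¹ ^ (p.2 + 1) - (ZMod.stdAddChar b : ℂ) ^ (p.2 + 1))))
    (a := fun b => dseCoef N ψ b * dseL q (ZMod.stdAddChar b))
    (fun b _ => (dseL_hasSum hq (dse_norm_stdAddChar b)).mul_left _)
  refine h1.congr_fun fun p => ?_
  have := dse_sum_coef_pow hψ (p.2 + 1)
  rw [← this, sum_mul]
  refine sum_congr rfl fun b _ => ?_
  ring

/-- the `q`-expansion coefficients of `G_ψ` -/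
def dseA (ψ : DirichletCharacter ℂ N) (n : ℕ) : ℂ :=
  if n = 0 then ∑ j ∈ range N, ψ (j : ZMod N) * (j : ℂ)
  else -(2 * (N : ℂ)) * ∑ d ∈ n.divisors, ψ (d : ZMod N)

/-- the normalised function `G_ψ = -(N/2πi) E_c` -/
def dseGfun (ψ : DirichletCharacter ℂ N) : ℍ → ℂ :=
  (-((N : ℂ) / (2 * π * I))) • dseE N (dseCoef N ψ)

theorem dseGfun_hasSum {ψ : DirichletCharacter ℂ N} (hψ : ψ (-1) = -1) (τ : ℍ) :
    HasSum (fun n : ℕ => dseA ψ n * cexp (2 * π * I * τ) ^ n) (dseGfun ψ τ) := by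
  have hN : (N : ℂ) ≠ 0 := Nat.cast_ne_zero.mpr (NeZero.ne N)
  have hpi : (2 * π * I : ℂ) ≠ 0 := by
    simp [Real.pi_ne_zero, I_ne_zero]
  have hq := norm_exp_two_pi_I_lt_one τ
  have h1 := (dse_hasSum_coef_L hψ hq).mul_left (-(N : ℂ))
  have h2 : HasSum (fun n : ℕ => dseA ψ (n + 1) * cexp (2 * π * I * τ) ^ (n + 1))
      (-(N : ℂ) * ∑ b ∈ univ.filter (fun b : ZMod N => b ≠ 0),
          dseCoef N ψ b * dseL (cexp (2 * π * I * τ)) (ZMod.stdAddChar b)) := by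
    refine h1.congr_fun fun n => ?_
    rw [dseA, if_neg (Nat.succ_ne_zero n), ← mul_sum]
    ring
  have h3 := HasSum.zero_add (f := fun n : ℕ => dseA ψ n * cexp (2 * π * I * τ) ^ n) h2
  have h4 : dseGfun ψ τ = dseA ψ 0 * cexp (2 * π * I * τ) ^ 0
      + -(N : ℂ) * ∑ b ∈ univ.filter (fun b : ZMod N => b ≠ 0),
          dseCoef N ψ b * dseL (cexp (2 * π * I * τ)) (ZMod.stdAddChar b) := by
    rw [dseGfun, Pi.smul_apply, dseE_apply_eq hψ, dseA, if_pos rfl, pow_zero, mul_one, smul_eq_mul]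
    set X := ∑ b ∈ univ.filter (fun b : ZMod N => b ≠ 0),
          dseCoef N ψ b * dseL (cexp (2 * π * I * τ)) (ZMod.stdAddChar b)
    set Y := ∑ r ∈ range N, ψ (r : ZMod N) * (r : ℂ)
    field_simp
    ring
  rw [h4]
  exact h3

end Fermat.Agent.DS
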