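/-
DS-E, file 12: **the weight-one Eisenstein series of an odd Dirichlet character** as a modular form
on `Γ₁(N)` with nebentypus `ψ` and `q`-expansion
`Σ_{j<N} ψ(j) j - 2N Σ_{n≥1} (Σ_{d∣n} ψ(d)) qⁿ`.
-/
import Mathlib
import Fermat.Prelude.Def_FLTPrelim_Modularity
import Fermat.Agent.Lib.DS.Eis1.QExp

set_option autoImplicit false

noncomputable section

namespace Fermat.Agent.DS

open UpperHalfPlane hiding I
open Complex Filter Topology Matrix Finset ModularForm CongruenceSubgroup ModularFormClass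
open scoped Real MatrixGroups Manifold

variable (N : ℕ) [NeZero N]

/-- the weight-one Eisenstein series `G_ψ` as a modular form on `Γ₁(N)` -/
def dseGForm (ψ : DirichletCharacter ℂ N) : ModularForm (Gamma1 N) 1 :=
  (-((N : ℂ) / (2 * π * I))) • dseEForm N (dseCoef N ψ)

theorem coe_dseGForm (ψ : DirichletCharacter ℂ N) : ⇑(dseGForm N ψ) = dseGfun ψ := rfl

/-- `Γ₀(N)`-equivariance with nebentypus `ψ` -/
theorem dseGForm_slash (ψ : DirichletCharacter ℂ N) {γ : SL(2, ℤ)} (hγ : γ ∈ Gamma0 N) :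
    (⇑(dseGForm N ψ) : ℍ → ℂ) ∣[(1 : ℤ)] γ
      = ψ (((γ 1 1 : ℤ)) : ZMod N) • (⇑(dseGForm N ψ) : ℍ → ℂ) := by
  have hdet : ((γ 0 0 : ℤ) : ZMod N) * ((γ 1 1 : ℤ) : ZMod N) = 1 := by
    have := γ.det_coe
    rw [Matrix.det_fin_two] at this
    have h2 := congrArg (fun x : ℤ => (x : ZMod N)) this
    simp only [Int.cast_sub, Int.cast_mul, Int.cast_one] at h2
    rw [Gamma0_mem.mp hγ, mul_zero, sub_zero] at h2
    exact h2
  have h1 := dseE_slash_Gamma0 N (dseCoef N ψ) hγ (ψ (((γ 1 1 : ℤ)) : ZMod N))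
    (fun b => dseCoef_mul_unit N ψ hdet b)
  rw [coe_dseGForm, dseGfun, SL_smul_slash, h1, smul_comm]

omit [NeZero N] in
theorem dse_one_mem_strictPeriods :
    (1 : ℝ) ∈ ((Gamma1 N : Subgroup SL(2, ℤ)) : Subgroup (GL (Fin 2) ℝ)).strictPeriods := by
  rw [CongruenceSubgroup.strictPeriods_Gamma1]
  exact AddSubgroup.mem_zmultiples 1

/-- the `q`-expansion of the multiples of `G_ψ` -/
theorem qCoeff_smul_dseGForm {ψ : DirichletCharacter ℂ N} (hψ : ψ (-1) = -1) (κ : ℂ) (n : ℕ) :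
    qCoeff (⇑(κ • dseGForm N ψ) : ℍ → ℂ) n = κ * dseA ψ n := by
  rw [qCoeff]
  refine (ModularFormClass.qExpansion_coeff_unique (c := fun n => κ * dseA ψ n) one_pos
    (dse_one_mem_strictPeriods N) (f := κ • dseGForm N ψ) ?_ n).symm
  intro τ
  have h := (dseGfun_hasSum hψ τ).mul_left κ
  have h0 : (⇑(κ • dseGForm N ψ) : ℍ → ℂ) τ = κ * dseGfun ψ τ := rfl
  rw [h0]
  refine h.congr_fun fun m => ?_
  rw [smul_eq_mul, mul_assoc]
  congr 3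
  simp [Function.Periodic.qParam]

/-- the `q`-expansion of `G_ψ` -/
theorem qCoeff_dseGForm {ψ : DirichletCharacter ℂ N} (hψ : ψ (-1) = -1) (n : ℕ) :
    qCoeff (dseGForm N ψ) n = dseA ψ n := by
  have h := qCoeff_smul_dseGForm N hψ 1 n
  rwa [one_smul, one_mul] at h

/-- **DS-E, general level**: the weight-one Eisenstein series of an odd Dirichlet character. -/
theorem dse_exists_of_neZero (ψ : DirichletCharacter ℂ N) (hψ : ψ (-1) = -1) :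
    ∃ G : ModularForm (Gamma1 N) 1,
      (∀ γ ∈ Gamma0 N, (⇑G : ℍ → ℂ) ∣[(1 : ℤ)] γ = ψ (((γ 1 1 : ℤ)) : ZMod N) • (⇑G : ℍ → ℂ)) ∧
      qCoeff G 0 = ∑ j ∈ Finset.range N, ψ (j : ZMod N) * (j : ℂ) ∧
      ∀ n : ℕ, 1 ≤ n → qCoeff G n = -(2 * (N : ℂ)) * ∑ d ∈ n.divisors, ψ (d : ZMod N) := by
  refine ⟨dseGForm N ψ, fun γ hγ => dseGForm_slash N ψ hγ, ?_, ?_⟩
  · rw [qCoeff_dseGForm N hψ, dseA, if_pos rfl]
  · intro n hn
    rw [qCoeff_dseGForm N hψ, dseA, if_neg (by omega)]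

/-- **DS-E** (the black box `DsvEis` of DS-4): prime level. -/
theorem dse_exists (ℓ : ℕ) [Fact ℓ.Prime] (ψ : DirichletCharacter ℂ ℓ) (hψ : ψ (-1) = -1) :
    ∃ G : ModularForm (Gamma1 ℓ) 1,
      (∀ γ ∈ Gamma0 ℓ, (⇑G : ℍ → ℂ) ∣[(1 : ℤ)] γ = ψ (((γ 1 1 : ℤ)) : ZMod ℓ) • (⇑G : ℍ → ℂ)) ∧
      qCoeff G 0 = ∑ j ∈ Finset.range ℓ, ψ (j : ZMod ℓ) * (j : ℂ) ∧
      ∀ n : ℕ, 1 ≤ n → qCoeff G n = -(2 * (ℓ : ℂ)) * ∑ d ∈ n.divisors, ψ (d : ZMod ℓ) :=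
  dse_exists_of_neZero ℓ ψ hψ

end Fermat.Agent.DS
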