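/-
DS-E, file 14: the DS-4 black box `DsvEis` is a theorem, hence so is `DsvProduct`.
-/
import Mathlib
import Fermat.Agent.Lib.DS.Eis1.Main
import Fermat.Agent.Lib.DS.Res.Product

set_option autoImplicit false

namespace Fermat.Agent.DS

/-- the DS-E black box of DS-4 -/
theorem dse_dsvEis : DsvEis := fun ℓ _ ψ h => dse_exists ℓ ψ h

/-- DS-4 part 1 without hypotheses -/
theorem dse_dsvProduct : DsvProduct := dsv_product dse_dsvEis

end Fermat.Agent.DS
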