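/-
DS-E / X3: **weight-one modular forms with integral `q`-expansion and constant term `1`**
(`DsqUnitForm M`) at the levels `3`, `4`, `7`, from the weight-one Eisenstein series of the odd
quadratic characters.
-/
import Mathlib
import Fermat.Agent.Lib.DS.Rat.Defs
import Fermat.Agent.Lib.DS.Eis1.Main

set_option autoImplicit false

noncomputable section

namespace Fermat.Agent.DS

open UpperHalfPlane hiding I
open Complex Finset ModularForm CongruenceSubgroup ModularFormClass
open scoped Real MatrixGroups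

/-- an odd integer-valued character `χ` modulo `N` whose generalised Bernoulli sum
`S = Σ_{j<N} χ(j) j` divides `2N` gives a weight-one form on `Γ₁(N)` with integral `q`-expansion
and constant term `1` (namely `G_χ / S`) -/
theorem dse_unitForm_of_char (N : ℕ) [NeZero N] (χ : MulChar (ZMod N) ℤ) (hχ : χ (-1) = -1)
    (S t : ℤ) (hS : ∑ j ∈ range N, χ (j : ZMod N) * (j : ℤ) = S) (ht : S * t = -(2 * (N : ℤ))) :
    DsqUnitForm N := by
  set ψ : DirichletCharacter ℂ N := χ.ringHomComp (Int.castRingHom ℂ) with hψdef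
  have hval : ∀ a : ZMod N, ψ a = ((χ a : ℤ) : ℂ) := fun a => rfl
  have hψ : ψ (-1) = -1 := by rw [hval, hχ]; simp
  have hS0 : S ≠ 0 := by
    rintro rfl
    rw [zero_mul] at ht
    have hN : (N : ℤ) ≠ 0 := Int.natCast_ne_zero.mpr (NeZero.ne N)
    omega
  have hSc : ((S : ℤ) : ℂ) ≠ 0 := Int.cast_ne_zero.mpr hS0
  have hsum : ∑ j ∈ range N, ψ (j : ZMod N) * (j : ℂ) = (S : ℂ) := by
    rw [← hS]
    push_cast
    exact sum_congr rfl fun j _ => by rw [hval]
  refine ⟨((S : ℂ)⁻¹) • dseGForm N ψ, ?_, ?_⟩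
  · rw [qCoeff_smul_dseGForm N hψ, dseA, if_pos rfl, hsum, inv_mul_cancel₀ hSc]
  · intro n
    by_cases hn : n = 0
    · refine ⟨1, ?_⟩
      rw [hn, qCoeff_smul_dseGForm N hψ, dseA, if_pos rfl, hsum, inv_mul_cancel₀ hSc]
      simp
    · refine ⟨t * ∑ d ∈ n.divisors, χ (d : ZMod N), ?_⟩
      rw [qCoeff_smul_dseGForm N hψ, dseA, if_neg hn]
      have h2 : (-(2 * (N : ℂ))) = (S : ℂ) * (t : ℂ) := by
        have := congrArg (fun x : ℤ => (x : ℂ)) ht
        simp only [Int.cast_mul, Int.cast_neg, Int.cast_ofNat, Int.cast_natCast] at this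
        exact this.symm
      rw [h2]
      push_cast
      have h3 : ∀ d : ℕ, ψ (d : ZMod N) = ((χ (d : ZMod N) : ℤ) : ℂ) := fun d => hval _
      simp only [h3]
      field_simp

/-- level `4`: `1 + 4 Σ_{n≥1} (Σ_{d∣n} χ₋₄(d)) qⁿ` -/
theorem dse_unitForm_four : DsqUnitForm 4 := by
  refine dse_unitForm_of_char 4 ZMod.χ₄ (by decide) (-2) 4 (by decide) (by norm_num)

/-- level `3`: `1 + 6 Σ_{n≥1} (Σ_{d∣n} (d/3)) qⁿ` -/
theorem dse_unitForm_three : DsqUnitForm 3 := by
  refine dse_unitForm_of_char 3 (quadraticChar (ZMod 3)) (by decide) (-1) 6 (by decide) (by norm_num)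

instance dse_fact_prime_seven : Fact (Nat.Prime 7) := ⟨by norm_num⟩

/-- level `7`: `1 + 2 Σ_{n≥1} (Σ_{d∣n} (d/7)) qⁿ` -/
theorem dse_unitForm_seven : DsqUnitForm 7 := by
  refine dse_unitForm_of_char 7 (quadraticChar (ZMod 7)) (by decide) (-7) 2 (by decide) (by norm_num)

end Fermat.Agent.DS
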